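import Fermat.Agent.LT.T6.H783.BadSpec

/-!
# Row LT, tower T6, sub-leaf T6.18d `LvlC783` (level change of orbit sums), helper777, OFF-MAIN

`lvlC777 : Fermat.Agent.LT.T6.H783.LvlC783` (VERBATIM Prop of `H783/BadSpec.lean`).

`O^{(m)}_γ(f) = κ · O^{(m₀)}_γ(f)` with `κ = [U(m₀) : U(m)]`, for `f` bi-`U(m₀)`-invariant,
`m₀ ≤ m` and `γ` regular.

Proof.  `U(n)` is a subgroup, `U(m)` is normal in `U(m₀)` of finite index (finite residue
system).  For `y` regular the set `T_y^c` (centraliser, integral characteristic polynomial, unit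
determinant) is a subgroup: the centraliser of `y` is `k + k y`, and for commuting `t, t'` the
traces of `t t'` and of `t adj(t')` are the roots of a monic quadratic polynomial with integral
coefficients.  So `cIndex U(n) y = [T_y^c : T_y^c ∩ U(n)]`.  The `U(m₀)`-orbit of `y₀` is the
union of `[U(m₀) : (T ∩ U(m₀)) U(m)]` orbits of `U(m)`, on which `f` and the index are constant,
and `[U(m₀) : (T ∩ U(m₀)) U(m)] · [T : T ∩ U(m)] = [U(m₀) : U(m)] · [T : T ∩ U(m₀)]`.
-/

set_option autoImplicit false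
set_option linter.unusedSectionVars false

open scoped Matrix

noncomputable section

namespace Fermat.Agent.LT.T6.H777

open Fermat.Agent.LT.T6 Fermat.Agent.LT.T6.H783

variable {k : Type} [Field k] [Valued k Γ₀]

/-! ## 1. Small matrices and the congruence subgroups -/

/-- All entries of `A` have valuation at most `exp (-n)`. -/
def Small777 (n : ℕ) (A : Matrix (Fin 2) (Fin 2) k) : Prop :=
  ∀ i j : Fin 2, Valued.v (A i j) ≤ WithZero.exp (-(n : ℤ))

theorem exp_neg_le_one777 (n : ℕ) : (WithZero.exp (-(n : ℤ)) : Γ₀) ≤ 1 := by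
  rw [← WithZero.exp_zero, WithZero.exp_le_exp]
  omega

theorem small_mono777 {n n' : ℕ} (h : n ≤ n') {A : Matrix (Fin 2) (Fin 2) k}
    (hA : Small777 n' A) : Small777 n A := fun i j =>
  (hA i j).trans (WithZero.exp_le_exp.2 (by omega))

theorem small_zero777 (n : ℕ) : Small777 n (0 : Matrix (Fin 2) (Fin 2) k) := fun i j => by
  simp

theorem small_one777 : Small777 0 (1 : Matrix (Fin 2) (Fin 2) k) := fun i j => by
  rw [Matrix.one_apply]
  split_ifs <;> simp

theorem small_add777 {n : ℕ} {A B : Matrix (Fin 2) (Fin 2) k} (hA : Small777 n A)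
    (hB : Small777 n B) : Small777 n (A + B) := fun i j =>
  Valuation.map_add_le _ (hA i j) (hB i j)

theorem small_sub777 {n : ℕ} {A B : Matrix (Fin 2) (Fin 2) k} (hA : Small777 n A)
    (hB : Small777 n B) : Small777 n (A - B) := fun i j =>
  Valuation.map_sub_le _ (hA i j) (hB i j)

theorem small_neg777 {n : ℕ} {A : Matrix (Fin 2) (Fin 2) k} (hA : Small777 n A) :
    Small777 n (-A) := fun i j => by
  rw [Matrix.neg_apply, Valuation.map_neg]
  exact hA i j

theorem small_mul777 {n n' : ℕ} {A B : Matrix (Fin 2) (Fin 2) k} (hA : Small777 n A)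
    (hB : Small777 n' B) : Small777 (n + n') (A * B) := fun i j => by
  rw [Matrix.mul_apply]
  refine Valuation.map_sum_le _ fun l _ => ?_
  rw [map_mul]
  have h : (WithZero.exp (-((n + n' : ℕ) : ℤ)) : Γ₀)
      = WithZero.exp (-(n : ℤ)) * WithZero.exp (-(n' : ℤ)) := by
    rw [← WithZero.exp_add]
    congr 1
    push_cast
    ring
  rw [h]
  exact mul_le_mul' (hA i l) (hB l j)

theorem small_mul_left777 {n : ℕ} {A B : Matrix (Fin 2) (Fin 2) k} (hA : Small777 0 A)
    (hB : Small777 n B) : Small777 n (A * B) := by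
  have := small_mul777 hA hB
  rwa [zero_add] at this

theorem small_mul_right777 {n : ℕ} {A B : Matrix (Fin 2) (Fin 2) k} (hA : Small777 n A)
    (hB : Small777 0 B) : Small777 n (A * B) := by
  have := small_mul777 hA hB
  rwa [add_zero] at this

theorem inU_iff777 (n : ℕ) (g : GL (Fin 2) k) :
    InU n g ↔ Small777 n ((g : Matrix (Fin 2) (Fin 2) k) - 1) ∧
      Small777 n (((g⁻¹ : GL (Fin 2) k) : Matrix (Fin 2) (Fin 2) k) - 1) := by
  unfold InU Small777
  simp only [Matrix.sub_apply]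
  exact ⟨fun h => ⟨fun i j => (h i j).1, fun i j => (h i j).2⟩, fun h i j => ⟨h.1 i j, h.2 i j⟩⟩

/-- The entries of an element of `U(n)` are integral. -/
theorem small_of_inU777 {n : ℕ} {g : GL (Fin 2) k} (hg : InU n g) :
    Small777 0 (g : Matrix (Fin 2) (Fin 2) k) := by
  have h := small_add777 (small_mono777 (Nat.zero_le n) ((inU_iff777 n g).1 hg).1) small_one777
  simpa using h

theorem small_inv_of_inU777 {n : ℕ} {g : GL (Fin 2) k} (hg : InU n g) :
    Small777 0 ((g⁻¹ : GL (Fin 2) k) : Matrix (Fin 2) (Fin 2) k) := by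
  have h := small_add777 (small_mono777 (Nat.zero_le n) ((inU_iff777 n g).1 hg).2) small_one777
  simpa using h

theorem inU_one777 (n : ℕ) : InU n (1 : GL (Fin 2) k) := by
  rw [inU_iff777]
  simp only [inv_one, Units.val_one, sub_self]
  exact ⟨small_zero777 n, small_zero777 n⟩

theorem inU_inv777 {n : ℕ} {g : GL (Fin 2) k} (hg : InU n g) : InU n g⁻¹ := by
  rw [inU_iff777] at hg ⊢
  rw [inv_inv]
  exact ⟨hg.2, hg.1⟩

theorem small_mul_sub_one777 {n : ℕ} {A B : Matrix (Fin 2) (Fin 2) k}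
    (hA : Small777 n (A - 1)) (hB : Small777 n (B - 1)) : Small777 n (A * B - 1) := by
  have h : A * B - 1 = (A - 1) * (B - 1) + (A - 1) + (B - 1) := by noncomm_ring
  rw [h]
  refine small_add777 (small_add777 ?_ hA) hB
  exact small_mono777 (Nat.le_add_right n n) (small_mul777 hA hB)

theorem inU_mul777 {n : ℕ} {g h : GL (Fin 2) k} (hg : InU n g) (hh : InU n h) :
    InU n (g * h) := by
  rw [inU_iff777] at hg hh ⊢
  refine ⟨?_, ?_⟩
  · rw [Units.val_mul]
    exact small_mul_sub_one777 hg.1 hh.1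
  · rw [mul_inv_rev, Units.val_mul]
    exact small_mul_sub_one777 hh.2 hg.2

/-- The principal congruence subgroup `U(n)`. -/
def Usub777 (k : Type) [Field k] [Valued k Γ₀] (n : ℕ) : Subgroup (GL (Fin 2) k) where
  carrier := {g | InU n g}
  mul_mem' := fun hg hh => inU_mul777 hg hh
  one_mem' := inU_one777 n
  inv_mem' := fun hg => inU_inv777 hg

@[simp] theorem mem_Usub777 {n : ℕ} {g : GL (Fin 2) k} : g ∈ Usub777 k n ↔ InU n g := Iff.rfl

theorem Usub_mono777 {m₀ m : ℕ} (h : m₀ ≤ m) : Usub777 k m ≤ Usub777 k m₀ := by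
  intro g hg
  rw [mem_Usub777, inU_iff777] at hg ⊢
  exact ⟨small_mono777 h hg.1, small_mono777 h hg.2⟩

/-- `U(m)` is normalised by `U(0)`. -/
theorem inU_conj777 {m : ℕ} {u g : GL (Fin 2) k} (hu : InU 0 u) (hg : InU m g) :
    InU m (u * g * u⁻¹) := by
  have key : ∀ h : GL (Fin 2) k, Small777 m ((h : Matrix (Fin 2) (Fin 2) k) - 1) →
      Small777 m (((u * h * u⁻¹ : GL (Fin 2) k) : Matrix (Fin 2) (Fin 2) k) - 1) := by
    intro h hh
    have e : ((u * h * u⁻¹ : GL (Fin 2) k) : Matrix (Fin 2) (Fin 2) k) - 1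
        = (u : Matrix (Fin 2) (Fin 2) k) * ((h : Matrix (Fin 2) (Fin 2) k) - 1)
          * ((u⁻¹ : GL (Fin 2) k) : Matrix (Fin 2) (Fin 2) k) := by
      have h1 : (u : Matrix (Fin 2) (Fin 2) k)
          * ((u⁻¹ : GL (Fin 2) k) : Matrix (Fin 2) (Fin 2) k) = 1 := by
        rw [← Units.val_mul, mul_inv_cancel, Units.val_one]
      rw [Units.val_mul, Units.val_mul, Matrix.mul_sub, Matrix.sub_mul, Matrix.mul_one, h1]
    rw [e]
    exact small_mul_right777 (small_mul_left777 (small_of_inU777 hu) hh)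
      (small_inv_of_inU777 hu)
  rw [inU_iff777] at hg ⊢
  refine ⟨key g hg.1, ?_⟩
  have e2 : (u * g * u⁻¹)⁻¹ = u * g⁻¹ * u⁻¹ := by group
  rw [e2]
  exact key g⁻¹ hg.2

/-! ## 2. `U(m)` has finite index in `U(0)` -/

theorem le_exp_neg_one_of_lt_one777 {γ : Γ₀} (h : γ < 1) : γ ≤ WithZero.exp (-1 : ℤ) := by
  rcases eq_or_ne γ 0 with rfl | h0
  · exact zero_le
  · rw [← WithZero.exp_log h0] at h ⊢
    rw [← WithZero.exp_zero, WithZero.exp_lt_exp] at h
    rw [WithZero.exp_le_exp]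
    omega

/-- A finite system of representatives of `𝒪 / ϖ^m 𝒪`. -/
theorem exists_reps777 {q : ℕ} (hk : IsLocalField k q) (m : ℕ) :
    ∃ A : Finset k, ∀ z : k, Valued.v z ≤ 1 →
      ∃ a ∈ A, Valued.v (z - a) ≤ WithZero.exp (-(m : ℤ)) := by
  classical
  obtain ⟨ϖ, hϖ⟩ := hk.unif
  obtain ⟨T, -, -, -, hT⟩ := hk.residue
  have hϖ0 : ϖ ≠ 0 := by
    intro h
    rw [h, map_zero] at hϖ
    exact WithZero.exp_ne_zero hϖ.symm
  have hpow : ∀ n : ℕ, Valued.v (ϖ ^ n) = WithZero.exp (-(n : ℤ)) := by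
    intro n
    rw [map_pow, hϖ, ← WithZero.exp_nsmul]
    congr 1
    simp
  induction m with
  | zero =>
    refine ⟨{0}, fun z hz => ⟨0, Finset.mem_singleton_self 0, ?_⟩⟩
    simpa using hz
  | succ m ih =>
    obtain ⟨A, hA⟩ := ih
    refine ⟨(A ×ˢ T).image (fun p => p.1 + ϖ ^ m * p.2), fun z hz => ?_⟩
    obtain ⟨a, ha, hza⟩ := hA z hz
    have hz' : Valued.v ((z - a) / ϖ ^ m) ≤ 1 := by
      rw [map_div₀, hpow]
      rw [div_le_iff₀ (WithZero.exp_pos), one_mul]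
      exact hza
    obtain ⟨x, hx, hzx⟩ := hT _ hz'
    refine ⟨a + ϖ ^ m * x, Finset.mem_image.2 ⟨(a, x), Finset.mem_product.2 ⟨ha, hx⟩, rfl⟩, ?_⟩
    have e : z - (a + ϖ ^ m * x) = ϖ ^ m * ((z - a) / ϖ ^ m - x) := by
      field_simp
      ring
    rw [e, map_mul, hpow]
    have h1 : (WithZero.exp (-((m + 1 : ℕ) : ℤ)) : Γ₀)
        = WithZero.exp (-(m : ℤ)) * WithZero.exp (-1 : ℤ) := by
      rw [← WithZero.exp_add]
      congr 1
      push_cast
      ring
    rw [h1]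
    exact mul_le_mul' le_rfl (le_exp_neg_one_of_lt_one777 hzx)

/-- Two elements of `U(0)` which are congruent modulo `ϖ^m` lie in the same coset of `U(m)`. -/
theorem inU_inv_mul_of_small777 {m : ℕ} {g g' : GL (Fin 2) k} (hg : InU 0 g) (hg' : InU 0 g')
    (h : Small777 m ((g : Matrix (Fin 2) (Fin 2) k) - (g' : Matrix (Fin 2) (Fin 2) k))) :
    InU m (g'⁻¹ * g) := by
  rw [inU_iff777]
  constructor
  · have e : ((g'⁻¹ * g : GL (Fin 2) k) : Matrix (Fin 2) (Fin 2) k) - 1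
        = ((g'⁻¹ : GL (Fin 2) k) : Matrix (Fin 2) (Fin 2) k)
          * ((g : Matrix (Fin 2) (Fin 2) k) - (g' : Matrix (Fin 2) (Fin 2) k)) := by
      have h1 : ((g'⁻¹ : GL (Fin 2) k) : Matrix (Fin 2) (Fin 2) k)
          * (g' : Matrix (Fin 2) (Fin 2) k) = 1 := by
        rw [← Units.val_mul, inv_mul_cancel, Units.val_one]
      rw [Units.val_mul, Matrix.mul_sub, h1]
    rw [e]
    exact small_mul_left777 (small_inv_of_inU777 hg') h
  · have e : (((g'⁻¹ * g)⁻¹ : GL (Fin 2) k) : Matrix (Fin 2) (Fin 2) k) - 1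
        = ((g⁻¹ : GL (Fin 2) k) : Matrix (Fin 2) (Fin 2) k)
          * -((g : Matrix (Fin 2) (Fin 2) k) - (g' : Matrix (Fin 2) (Fin 2) k)) := by
      have h1 : ((g⁻¹ : GL (Fin 2) k) : Matrix (Fin 2) (Fin 2) k)
          * (g : Matrix (Fin 2) (Fin 2) k) = 1 := by
        rw [← Units.val_mul, inv_mul_cancel, Units.val_one]
      rw [mul_inv_rev, inv_inv, Units.val_mul, neg_sub, Matrix.mul_sub, h1]
    rw [e]
    exact small_mul_left777 (small_inv_of_inU777 hg) (small_neg777 h)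

theorem finite_quot777 {q : ℕ} (hk : IsLocalField k q) (m : ℕ) :
    Finite (↥(Usub777 k 0) ⧸ (Usub777 k m).subgroupOf (Usub777 k 0)) := by
  classical
  obtain ⟨A, hA⟩ := exists_reps777 hk m
  let P : (Fin 2 → Fin 2 → A) → ↥(Usub777 k 0) → Prop := fun c g =>
    ∀ i j, Valued.v (((g : GL (Fin 2) k) : Matrix (Fin 2) (Fin 2) k) i j - (c i j : k))
      ≤ WithZero.exp (-(m : ℤ))
  let F : (Fin 2 → Fin 2 → A) → ↥(Usub777 k 0) ⧸ (Usub777 k m).subgroupOf (Usub777 k 0) :=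
    fun c => if h : ∃ g, P c g then (QuotientGroup.mk h.choose) else QuotientGroup.mk 1
  refine Finite.of_surjective F fun x => ?_
  obtain ⟨g, rfl⟩ := QuotientGroup.mk_surjective x
  have hg0 : InU 0 (g : GL (Fin 2) k) := g.2
  have hint := small_of_inU777 hg0
  have hch : ∀ i j, ∃ a ∈ A, Valued.v (((g : GL (Fin 2) k) : Matrix (Fin 2) (Fin 2) k) i j - a)
      ≤ WithZero.exp (-(m : ℤ)) := fun i j => hA _ (by simpa using hint i j)
  choose c hcA hc using hch
  refine ⟨fun i j => ⟨c i j, hcA i j⟩, ?_⟩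
  have hex : ∃ g', P (fun i j => ⟨c i j, hcA i j⟩) g' := ⟨g, fun i j => hc i j⟩
  simp only [F, dif_pos hex]
  rw [QuotientGroup.eq, Subgroup.mem_subgroupOf]
  have hg' := hex.choose_spec
  set g' := hex.choose
  have hsm : Small777 m (((g : GL (Fin 2) k) : Matrix (Fin 2) (Fin 2) k)
      - ((g' : GL (Fin 2) k) : Matrix (Fin 2) (Fin 2) k)) := by
    intro i j
    have e : (((g : GL (Fin 2) k) : Matrix (Fin 2) (Fin 2) k)
        - ((g' : GL (Fin 2) k) : Matrix (Fin 2) (Fin 2) k)) i j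
        = (((g : GL (Fin 2) k) : Matrix (Fin 2) (Fin 2) k) i j - c i j)
          - (((g' : GL (Fin 2) k) : Matrix (Fin 2) (Fin 2) k) i j - c i j) := by
      rw [Matrix.sub_apply]
      ring
    rw [e]
    exact Valuation.map_sub_le _ (hc i j) (hg' i j)
  exact inU_inv_mul_of_small777 hg0 g'.2 hsm

theorem relIndex_ne_zero777 {q : ℕ} (hk : IsLocalField k q) {m₀ m : ℕ} (h : m₀ ≤ m) :
    (Usub777 k m).relIndex (Usub777 k m₀) ≠ 0 := by
  have h0 : (Usub777 k m).relIndex (Usub777 k 0) ≠ 0 := by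
    have := finite_quot777 hk m
    exact Subgroup.index_ne_zero_iff_finite.2 this
  have hmul := Subgroup.relIndex_mul_relIndex (Usub777 k m) (Usub777 k m₀) (Usub777 k 0)
    (Usub_mono777 h) (Usub_mono777 (Nat.zero_le m₀))
  intro hz
  rw [hz, zero_mul] at hmul
  exact h0 hmul.symm

/-! ## 3. The centraliser of a regular element -/

theorem glAut_refl777 (x : GL (Fin 2) k) : glAut (RingEquiv.refl k) x = x := by
  unfold glAut
  have h : ((RingEquiv.refl k : k ≃+* k) : k →+* k) = RingHom.id k := rfl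
  rw [h, Matrix.GeneralLinearGroup.map_id]
  rfl

theorem inTwCent_refl_iff777 (y t : GL (Fin 2) k) :
    InTwCent (RingEquiv.refl k) y t ↔ t * y = y * t := by
  unfold InTwCent
  rw [glAut_refl777]
  constructor
  · intro h
    calc t * y = t * (t⁻¹ * y * t) := by rw [h]
      _ = y * t := by group
  · intro h
    calc t⁻¹ * y * t = t⁻¹ * (y * t) := by group
      _ = t⁻¹ * (t * y) := by rw [h]
      _ = y := by group

/-- The centraliser of a regular `2 × 2` matrix `y` is `k + k y`. -/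
theorem exists_param777 {y t : Matrix (Fin 2) (Fin 2) k}
    (hy : y.trace ^ 2 - 4 * y.det ≠ 0) (hc : t * y = y * t) :
    ∃ a b : k, t = a • (1 : Matrix (Fin 2) (Fin 2) k) + b • y := by
  have e00 := congrFun (congrFun hc 0) 0
  have e01 := congrFun (congrFun hc 0) 1
  have e10 := congrFun (congrFun hc 1) 0
  simp only [Matrix.mul_apply, Fin.sum_univ_two] at e00 e01 e10
  rw [Matrix.trace_fin_two, Matrix.det_fin_two] at hy
  by_cases h01 : y 0 1 = 0
  · have hd : y 0 0 - y 1 1 ≠ 0 := by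
      intro h
      apply hy
      rw [h01]
      have : y 0 0 = y 1 1 := sub_eq_zero.1 h
      rw [this]
      ring
    have ht01 : t 0 1 = 0 := by
      rw [h01] at e01
      have : t 0 1 * (y 0 0 - y 1 1) = 0 := by linear_combination -e01
      rcases mul_eq_zero.1 this with h | h
      · exact h
      · exact absurd h hd
    refine ⟨t 0 0 - (t 0 0 - t 1 1) / (y 0 0 - y 1 1) * y 0 0,
      (t 0 0 - t 1 1) / (y 0 0 - y 1 1), ?_⟩
    ext i j
    fin_cases i <;> fin_cases j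
    · simp
    · simp [h01, ht01]
    · simp only [Fin.mk_one, Fin.isValue, Fin.zero_eta, Matrix.add_apply, Matrix.smul_apply,
        ne_eq, one_ne_zero, not_false_eq_true, Matrix.one_apply_ne, smul_eq_mul, mul_zero,
        zero_add]
      field_simp
      linear_combination e10
    · simp only [Fin.mk_one, Fin.isValue, Matrix.add_apply, Matrix.smul_apply,
        Matrix.one_apply_eq, smul_eq_mul, mul_one]
      field_simp
      ring
  · refine ⟨t 0 0 - t 0 1 / y 0 1 * y 0 0, t 0 1 / y 0 1, ?_⟩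
    ext i j
    fin_cases i <;> fin_cases j
    · simp
    · simp only [Fin.zero_eta, Fin.isValue, Fin.mk_one, Matrix.add_apply, Matrix.smul_apply,
        ne_eq, zero_ne_one, not_false_eq_true, Matrix.one_apply_ne, smul_eq_mul, mul_zero,
        zero_add]
      field_simp
    · simp only [Fin.mk_one, Fin.isValue, Fin.zero_eta, Matrix.add_apply, Matrix.smul_apply,
        ne_eq, one_ne_zero, not_false_eq_true, Matrix.one_apply_ne, smul_eq_mul, mul_zero,
        zero_add]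
      field_simp
      linear_combination -e00
    · simp only [Fin.mk_one, Fin.isValue, Matrix.add_apply, Matrix.smul_apply,
        Matrix.one_apply_eq, smul_eq_mul, mul_one]
      field_simp
      linear_combination -e01

/-- For `t, t' ∈ k + k y` the trace of `t t'` is a root of a monic quadratic polynomial whose
coefficients are polynomials in the traces and determinants of `t` and `t'`. -/
theorem trace_mul_quadratic777 (y : Matrix (Fin 2) (Fin 2) k) (a b a' b' : k) :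
    ((a • (1 : Matrix (Fin 2) (Fin 2) k) + b • y) * (a' • 1 + b' • y)).trace ^ 2
      - ((a • (1 : Matrix (Fin 2) (Fin 2) k) + b • y).trace * (a' • 1 + b' • y).trace)
        * ((a • (1 : Matrix (Fin 2) (Fin 2) k) + b • y) * (a' • 1 + b' • y)).trace
      + ((a' • (1 : Matrix (Fin 2) (Fin 2) k) + b' • y).det
            * ((a • (1 : Matrix (Fin 2) (Fin 2) k) + b • y).trace ^ 2
              - 2 * (a • (1 : Matrix (Fin 2) (Fin 2) k) + b • y).det)
          + (a • (1 : Matrix (Fin 2) (Fin 2) k) + b • y).det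
            * ((a' • (1 : Matrix (Fin 2) (Fin 2) k) + b' • y).trace ^ 2
              - 2 * (a' • (1 : Matrix (Fin 2) (Fin 2) k) + b' • y).det)) = 0 := by
  simp only [Matrix.trace_fin_two, Matrix.det_fin_two, Matrix.mul_apply, Fin.sum_univ_two,
    Matrix.add_apply, Matrix.smul_apply, Matrix.one_apply_eq, smul_eq_mul, mul_one, ne_eq,
    zero_ne_one, one_ne_zero, not_false_eq_true, Matrix.one_apply_ne, mul_zero, zero_add]
  ring

theorem val_two_le_one777 : Valued.v (2 : k) ≤ 1 := by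
  have h : (2 : k) = 1 + 1 := by norm_num
  rw [h]
  exact Valuation.map_add_le _ (by simp) (by simp)

/-- The valuation ring is integrally closed (quadratic case). -/
theorem val_le_one_of_quadratic777 {x s p : k} (hs : Valued.v s ≤ 1) (hp : Valued.v p ≤ 1)
    (h : x ^ 2 - s * x + p = 0) : Valued.v x ≤ 1 := by
  by_contra hx
  rw [not_le] at hx
  have hx0 : (0 : Γ₀) < Valued.v x := lt_trans zero_lt_one hx
  have e : x ^ 2 = s * x - p := by linear_combination h
  have h1 : Valued.v (x ^ 2) ≤ Valued.v x := by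
    rw [e]
    refine Valuation.map_sub_le _ ?_ (hp.trans hx.le)
    rw [map_mul]
    calc Valued.v s * Valued.v x ≤ 1 * Valued.v x := mul_le_mul' hs le_rfl
      _ = Valued.v x := one_mul _
  have h2 : Valued.v x < Valued.v (x ^ 2) := by
    rw [map_pow, sq]
    calc Valued.v x = 1 * Valued.v x := (one_mul _).symm
      _ < Valued.v x * Valued.v x := by
        exact mul_lt_mul_of_pos_right hx hx0
  exact absurd h1 (not_le.2 h2)

theorem inTwCentC_iff777 (y t : GL (Fin 2) k) :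
    InTwCentC (RingEquiv.refl k) y t ↔ t * y = y * t ∧
      Valued.v (t : Matrix (Fin 2) (Fin 2) k).trace ≤ 1 ∧
      Valued.v (t : Matrix (Fin 2) (Fin 2) k).det = 1 := by
  unfold InTwCentC
  rw [inTwCent_refl_iff777]

/-- Cayley--Hamilton for `2 × 2` matrices. -/
theorem mul_adj777 (M : Matrix (Fin 2) (Fin 2) k) :
    M * (M.trace • (1 : Matrix (Fin 2) (Fin 2) k) - M) = M.det • (1 : Matrix (Fin 2) (Fin 2) k) := by
  ext i j
  fin_cases i <;> fin_cases j <;>
    simp [Matrix.trace_fin_two, Matrix.det_fin_two, Matrix.mul_apply, Fin.sum_univ_two] <;> ring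

theorem trace_inv777 {M N : Matrix (Fin 2) (Fin 2) k} (h : M * N = 1) :
    N.trace * M.det = M.trace := by
  have h' : N * M = 1 := mul_eq_one_comm.1 h
  have e : M.trace • (1 : Matrix (Fin 2) (Fin 2) k) - M = M.det • N := by
    calc M.trace • (1 : Matrix (Fin 2) (Fin 2) k) - M
        = (N * M) * (M.trace • (1 : Matrix (Fin 2) (Fin 2) k) - M) := by rw [h', Matrix.one_mul]
      _ = N * (M * (M.trace • (1 : Matrix (Fin 2) (Fin 2) k) - M)) := by rw [Matrix.mul_assoc]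
      _ = M.det • N := by rw [mul_adj777, Matrix.mul_smul, Matrix.mul_one]
  have e2 := congrArg Matrix.trace e
  rw [Matrix.trace_sub, Matrix.trace_smul, Matrix.trace_smul, Matrix.trace_one] at e2
  simp only [Fintype.card_fin, Nat.cast_ofNat, smul_eq_mul] at e2
  linear_combination -e2

theorem inTwCentC_one777 (y : GL (Fin 2) k) : InTwCentC (RingEquiv.refl k) y 1 := by
  rw [inTwCentC_iff777]
  refine ⟨by group, ?_, by simp⟩
  rw [Units.val_one, Matrix.trace_one]
  simpa using val_two_le_one777 (k := k)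

theorem inTwCentC_inv777 {y t : GL (Fin 2) k} (ht : InTwCentC (RingEquiv.refl k) y t) :
    InTwCentC (RingEquiv.refl k) y t⁻¹ := by
  rw [inTwCentC_iff777] at ht ⊢
  obtain ⟨hc, htr, hdet⟩ := ht
  have hmul : (t : Matrix (Fin 2) (Fin 2) k) * ((t⁻¹ : GL (Fin 2) k) : Matrix (Fin 2) (Fin 2) k)
      = 1 := by
    rw [← Units.val_mul, mul_inv_cancel, Units.val_one]
  have hd : Valued.v ((t⁻¹ : GL (Fin 2) k) : Matrix (Fin 2) (Fin 2) k).det = 1 := by
    have := congrArg Matrix.det hmul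
    rw [Matrix.det_mul, Matrix.det_one] at this
    have h2 := congrArg (Valued.v : k → Γ₀) this
    rw [map_mul, hdet, one_mul, map_one] at h2
    exact h2
  refine ⟨?_, ?_, hd⟩
  · calc t⁻¹ * y = t⁻¹ * (y * t) * t⁻¹ := by group
      _ = t⁻¹ * (t * y) * t⁻¹ := by rw [hc]
      _ = y * t⁻¹ := by group
  · have h3 := trace_inv777 hmul
    have h4 := congrArg (Valued.v : k → Γ₀) h3
    rw [map_mul, hdet, mul_one] at h4
    rw [h4]
    exact htr

theorem inTwCentC_mul777 {y t t' : GL (Fin 2) k} (hy : disc y ≠ 0)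
    (ht : InTwCentC (RingEquiv.refl k) y t) (ht' : InTwCentC (RingEquiv.refl k) y t') :
    InTwCentC (RingEquiv.refl k) y (t * t') := by
  rw [inTwCentC_iff777] at ht ht' ⊢
  obtain ⟨hc, htr, hdet⟩ := ht
  obtain ⟨hc', htr', hdet'⟩ := ht'
  refine ⟨?_, ?_, ?_⟩
  · calc t * t' * y = t * (t' * y) := by group
      _ = t * (y * t') := by rw [hc']
      _ = (t * y) * t' := by group
      _ = (y * t) * t' := by rw [hc]
      _ = y * (t * t') := by group
  · have hcm : (t : Matrix (Fin 2) (Fin 2) k) * (y : Matrix (Fin 2) (Fin 2) k)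
        = (y : Matrix (Fin 2) (Fin 2) k) * (t : Matrix (Fin 2) (Fin 2) k) := by
      rw [← Units.val_mul, hc, Units.val_mul]
    have hcm' : (t' : Matrix (Fin 2) (Fin 2) k) * (y : Matrix (Fin 2) (Fin 2) k)
        = (y : Matrix (Fin 2) (Fin 2) k) * (t' : Matrix (Fin 2) (Fin 2) k) := by
      rw [← Units.val_mul, hc', Units.val_mul]
    obtain ⟨a, b, hab⟩ := exists_param777 (y := (y : Matrix (Fin 2) (Fin 2) k)) hy hcm
    obtain ⟨a', b', hab'⟩ := exists_param777 (y := (y : Matrix (Fin 2) (Fin 2) k)) hy hcm'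
    have hq := trace_mul_quadratic777 (y : Matrix (Fin 2) (Fin 2) k) a b a' b'
    rw [← hab, ← hab'] at hq
    rw [Units.val_mul]
    refine val_le_one_of_quadratic777 (s := (t : Matrix (Fin 2) (Fin 2) k).trace
        * (t' : Matrix (Fin 2) (Fin 2) k).trace) ?_ ?_ hq
    · rw [map_mul]
      exact mul_le_one' htr htr'
    · have aux : ∀ {τ δ : k}, Valued.v τ ≤ 1 → Valued.v δ = 1 →
          Valued.v (τ ^ 2 - 2 * δ) ≤ 1 := by
        intro τ δ hτ hδ
        refine Valuation.map_sub_le _ ?_ ?_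
        · rw [map_pow]
          exact pow_le_one' hτ 2
        · rw [map_mul, hδ, mul_one]
          exact val_two_le_one777
      refine Valuation.map_add_le _ ?_ ?_
      · rw [map_mul, hdet', one_mul]
        exact aux htr hdet
      · rw [map_mul, hdet, one_mul]
        exact aux htr' hdet'
  · rw [Units.val_mul, Matrix.det_mul, map_mul, hdet, hdet', one_mul]

/-- The maximal compact subgroup `T_y^c` of the centraliser of a regular `y`. -/
def Tsub777 (y : GL (Fin 2) k) (hy : disc y ≠ 0) : Subgroup (GL (Fin 2) k) where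
  carrier := {t | InTwCentC (RingEquiv.refl k) y t}
  mul_mem' := fun ht ht' => inTwCentC_mul777 hy ht ht'
  one_mem' := inTwCentC_one777 y
  inv_mem' := fun ht => inTwCentC_inv777 ht

@[simp] theorem mem_Tsub777 {y : GL (Fin 2) k} {hy : disc y ≠ 0} {t : GL (Fin 2) k} :
    t ∈ Tsub777 y hy ↔ InTwCentC (RingEquiv.refl k) y t := Iff.rfl

/-- An element of `U(n)` has integral trace and unit determinant. -/
theorem trace_det_of_inU777 {n : ℕ} {u : GL (Fin 2) k} (hu : InU n u) :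
    Valued.v (u : Matrix (Fin 2) (Fin 2) k).trace ≤ 1 ∧
      Valued.v (u : Matrix (Fin 2) (Fin 2) k).det = 1 := by
  have h1 := small_of_inU777 hu
  have h2 := small_inv_of_inU777 hu
  have hdet : ∀ M : Matrix (Fin 2) (Fin 2) k, Small777 0 M → Valued.v M.det ≤ 1 := by
    intro M hM
    rw [Matrix.det_fin_two]
    have hM' : ∀ i j, Valued.v (M i j) ≤ 1 := fun i j => by simpa using hM i j
    refine Valuation.map_sub_le _ ?_ ?_ <;>
      · rw [map_mul]
        exact mul_le_one' (hM' _ _) (hM' _ _)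
  refine ⟨?_, ?_⟩
  · rw [Matrix.trace_fin_two]
    exact Valuation.map_add_le _ (by simpa using h1 0 0) (by simpa using h1 1 1)
  · have hmul : (u : Matrix (Fin 2) (Fin 2) k) * ((u⁻¹ : GL (Fin 2) k) : Matrix (Fin 2) (Fin 2) k)
        = 1 := by
      rw [← Units.val_mul, mul_inv_cancel, Units.val_one]
    have h3 := congrArg Matrix.det hmul
    rw [Matrix.det_mul, Matrix.det_one] at h3
    have h4 := congrArg (Valued.v : k → Γ₀) h3
    rw [map_mul, map_one] at h4
    refine le_antisymm (hdet _ h1) ?_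
    by_contra hlt
    rw [not_le] at hlt
    have : Valued.v (u : Matrix (Fin 2) (Fin 2) k).det
        * Valued.v ((u⁻¹ : GL (Fin 2) k) : Matrix (Fin 2) (Fin 2) k).det < 1 := by
      calc Valued.v (u : Matrix (Fin 2) (Fin 2) k).det
            * Valued.v ((u⁻¹ : GL (Fin 2) k) : Matrix (Fin 2) (Fin 2) k).det
          ≤ Valued.v (u : Matrix (Fin 2) (Fin 2) k).det * 1 := mul_le_mul' le_rfl (hdet _ h2)
        _ = Valued.v (u : Matrix (Fin 2) (Fin 2) k).det := mul_one _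
        _ < 1 := hlt
    rw [h4] at this
    exact lt_irrefl _ this

/-- `T_y^c ∩ U(n)` is the stabiliser of `y` in `U(n)`. -/
theorem mem_Tsub_of_inU777 {n : ℕ} {y u : GL (Fin 2) k} (hy : disc y ≠ 0) (hu : InU n u)
    (hc : u * y = y * u) : u ∈ Tsub777 y hy := by
  rw [mem_Tsub777, inTwCentC_iff777]
  exact ⟨hc, (trace_det_of_inU777 hu).1, (trace_det_of_inU777 hu).2⟩

/-! ## 4. The index `cIndex` as a relative index -/

theorem cIndex_eq_relIndex777 (n : ℕ) (y : GL (Fin 2) k) (hy : disc y ≠ 0) :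
    cIndex (InU n) (InTwCentC (RingEquiv.refl k)) y
      = (Usub777 k n).relIndex (Tsub777 y hy) := by
  classical
  let F : (↥(Tsub777 y hy) ⧸ (Usub777 k n).subgroupOf (Tsub777 y hy)) → Set (GL (Fin 2) k) :=
    fun x => Quotient.liftOn' x
      (fun t => {g : GL (Fin 2) k | ∃ u : GL (Fin 2) k, InU n u ∧ g = (t : GL (Fin 2) k) * u})
      (by
        intro t t' h
        rw [QuotientGroup.leftRel_apply, Subgroup.mem_subgroupOf] at h
        have h' : InU n ((t : GL (Fin 2) k)⁻¹ * (t' : GL (Fin 2) k)) := by simpa using h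
        ext g
        simp only [Set.mem_ofPred_eq]
        constructor
        · rintro ⟨u, hu, rfl⟩
          refine ⟨((t : GL (Fin 2) k)⁻¹ * (t' : GL (Fin 2) k))⁻¹ * u,
            inU_mul777 (inU_inv777 h') hu, by group⟩
        · rintro ⟨u, hu, rfl⟩
          exact ⟨((t : GL (Fin 2) k)⁻¹ * (t' : GL (Fin 2) k)) * u, inU_mul777 h' hu, by group⟩)
  have hFmk : ∀ t : ↥(Tsub777 y hy), F (QuotientGroup.mk t)
      = {g : GL (Fin 2) k | ∃ u : GL (Fin 2) k, InU n u ∧ g = (t : GL (Fin 2) k) * u} :=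
    fun t => rfl
  have hF : Function.Injective F := by
    intro x x' h
    induction x using QuotientGroup.induction_on with
    | H t =>
    induction x' using QuotientGroup.induction_on with
    | H t' =>
    rw [hFmk, hFmk] at h
    have hmem : (t' : GL (Fin 2) k) ∈ {g : GL (Fin 2) k | ∃ u : GL (Fin 2) k, InU n u ∧
        g = (t : GL (Fin 2) k) * u} := by
      rw [h]
      exact ⟨1, inU_one777 n, by group⟩
    obtain ⟨u, hu, hu'⟩ := hmem
    rw [QuotientGroup.eq, Subgroup.mem_subgroupOf]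
    have : (t : GL (Fin 2) k)⁻¹ * (t' : GL (Fin 2) k) = u := by rw [hu']; group
    simpa [this] using hu
  have hr : Set.range F = {c : Set (GL (Fin 2) k) | ∃ t : GL (Fin 2) k,
      InTwCentC (RingEquiv.refl k) y t ∧
        c = {g : GL (Fin 2) k | ∃ u : GL (Fin 2) k, InU n u ∧ g = t * u}} := by
    ext c
    constructor
    · rintro ⟨x, rfl⟩
      induction x using QuotientGroup.induction_on with
      | H t => exact ⟨t, t.2, hFmk t⟩
    · rintro ⟨t, ht, rfl⟩
      exact ⟨QuotientGroup.mk ⟨t, ht⟩, hFmk ⟨t, ht⟩⟩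
  unfold cIndex
  rw [← hr, Set.ncard_range_of_injective hF]
  rfl

/-! ## 5. Conjugation by `U(0)` -/

theorem disc_conj777 (x y : GL (Fin 2) k) : disc (x * y * x⁻¹) = disc y := by
  unfold disc
  rw [Units.val_mul, Units.val_mul, Matrix.trace_units_conj, Matrix.det_units_conj]

theorem inTwCentC_conj777 (x y t : GL (Fin 2) k) :
    InTwCentC (RingEquiv.refl k) (x * y * x⁻¹) (x * t * x⁻¹)
      ↔ InTwCentC (RingEquiv.refl k) y t := by
  rw [inTwCentC_iff777, inTwCentC_iff777]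
  have h1 : ((x * t * x⁻¹ : GL (Fin 2) k) : Matrix (Fin 2) (Fin 2) k).trace
      = (t : Matrix (Fin 2) (Fin 2) k).trace := by
    rw [Units.val_mul, Units.val_mul, Matrix.trace_units_conj]
  have h2 : ((x * t * x⁻¹ : GL (Fin 2) k) : Matrix (Fin 2) (Fin 2) k).det
      = (t : Matrix (Fin 2) (Fin 2) k).det := by
    rw [Units.val_mul, Units.val_mul, Matrix.det_units_conj]
  rw [h1, h2]
  have h3 : x * t * x⁻¹ * (x * y * x⁻¹) = x * y * x⁻¹ * (x * t * x⁻¹) ↔ t * y = y * t := by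
    constructor
    · intro h
      have e1 : t * y = x⁻¹ * (x * t * x⁻¹ * (x * y * x⁻¹)) * x := by group
      have e2 : y * t = x⁻¹ * (x * y * x⁻¹ * (x * t * x⁻¹)) * x := by group
      rw [e1, e2, h]
    · intro h
      have e1 : x * t * x⁻¹ * (x * y * x⁻¹) = x * (t * y) * x⁻¹ := by group
      have e2 : x * y * x⁻¹ * (x * t * x⁻¹) = x * (y * t) * x⁻¹ := by group
      rw [e1, e2, h]
  rw [h3]

theorem map_conj_Usub777 {m : ℕ} {x : GL (Fin 2) k} (hx : InU 0 x) :
    (Usub777 k m).map (MulAut.conj x).toMonoidHom = Usub777 k m := by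
  ext g
  simp only [Subgroup.mem_map, mem_Usub777, MulEquiv.coe_toMonoidHom, MulAut.conj_apply]
  constructor
  · rintro ⟨w, hw, rfl⟩
    exact inU_conj777 hx hw
  · intro hg
    refine ⟨x⁻¹ * g * x, ?_, by group⟩
    have := inU_conj777 (inU_inv777 hx) hg
    rwa [inv_inv] at this

theorem map_conj_Tsub777 (x y : GL (Fin 2) k) (hy : disc y ≠ 0)
    (hy' : disc (x * y * x⁻¹) ≠ 0) :
    (Tsub777 y hy).map (MulAut.conj x).toMonoidHom = Tsub777 (x * y * x⁻¹) hy' := by
  ext g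
  simp only [Subgroup.mem_map, mem_Tsub777, MulEquiv.coe_toMonoidHom, MulAut.conj_apply]
  constructor
  · rintro ⟨t, ht, rfl⟩
    exact (inTwCentC_conj777 x y t).2 ht
  · intro hg
    refine ⟨x⁻¹ * g * x, ?_, by group⟩
    have e : g = x * (x⁻¹ * g * x) * x⁻¹ := by group
    rw [e] at hg
    exact (inTwCentC_conj777 x y _).1 hg

/-- The index is invariant under conjugation by `U(0)`. -/
theorem relIndex_conj777 {m : ℕ} {x : GL (Fin 2) k} (hx : InU 0 x) (y : GL (Fin 2) k)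
    (hy : disc y ≠ 0) (hy' : disc (x * y * x⁻¹) ≠ 0) :
    (Usub777 k m).relIndex (Tsub777 (x * y * x⁻¹) hy') = (Usub777 k m).relIndex (Tsub777 y hy) := by
  have h := Subgroup.relIndex_map_map_of_injective (Usub777 k m) (Tsub777 y hy)
    (f := (MulAut.conj x).toMonoidHom) (MulAut.conj x).injective
  rw [map_conj_Usub777 hx, map_conj_Tsub777 x y hy hy'] at h
  exact h

/-! ## 6. The `U(m)`-orbits in a `U(m₀)`-orbit -/

/-- `U(m)` as a subgroup of `U(m₀)`. -/
abbrev Nsub777 (k : Type) [Field k] [Valued k Γ₀] (m₀ m : ℕ) : Subgroup ↥(Usub777 k m₀) :=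
  (Usub777 k m).subgroupOf (Usub777 k m₀)

/-- The stabiliser of `y₀` in `U(m₀)`. -/
abbrev Asub777 (m₀ : ℕ) (y₀ : GL (Fin 2) k) (hy : disc y₀ ≠ 0) : Subgroup ↥(Usub777 k m₀) :=
  (Tsub777 y₀ hy).subgroupOf (Usub777 k m₀)

theorem inU_zero_of_mem777 {m₀ : ℕ} (v : ↥(Usub777 k m₀)) : InU 0 (v : GL (Fin 2) k) :=
  Usub_mono777 (Nat.zero_le m₀) v.2

instance normal_Nsub777 (m₀ m : ℕ) : (Nsub777 k m₀ m).Normal := by
  refine ⟨fun n hn g => ?_⟩
  rw [Subgroup.mem_subgroupOf] at hn ⊢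
  have := inU_conj777 (inU_zero_of_mem777 g) hn
  simpa using this

theorem orbit_card777 {m₀ m : ℕ} (y₀ : GL (Fin 2) k) (hy : disc y₀ ≠ 0)
    (S : Finset (GL (Fin 2) k))
    (ha : ∀ y ∈ S, ∃ v : ↥(Usub777 k m₀),
      y = (v : GL (Fin 2) k) * y₀ * (v : GL (Fin 2) k)⁻¹)
    (hb : ∀ y ∈ S, ∀ y' ∈ S, (∃ w : GL (Fin 2) k, InU m w ∧ y' = w * y * w⁻¹) → y = y')
    (hc : ∀ v : ↥(Usub777 k m₀), ∃ y ∈ S, ∃ w : GL (Fin 2) k, InU m w ∧
      y = w * ((v : GL (Fin 2) k) * y₀ * (v : GL (Fin 2) k)⁻¹) * w⁻¹)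
    (hm : m₀ ≤ m) :
    S.card = (Asub777 m₀ y₀ hy ⊔ Nsub777 k m₀ m).index := by
  classical
  let Φ : {y // y ∈ S} → ↥(Usub777 k m₀) ⧸ (Asub777 m₀ y₀ hy ⊔ Nsub777 k m₀ m) :=
    fun y => QuotientGroup.mk (Classical.choose (ha y.1 y.2))
  have hΦ : ∀ y : {y // y ∈ S}, (y : GL (Fin 2) k)
      = ((Classical.choose (ha y.1 y.2) : ↥(Usub777 k m₀)) : GL (Fin 2) k) * y₀
        * ((Classical.choose (ha y.1 y.2) : ↥(Usub777 k m₀)) : GL (Fin 2) k)⁻¹ :=
    fun y => Classical.choose_spec (ha y.1 y.2)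
  have hinj : Function.Injective Φ := by
    intro y y' h
    simp only [Φ] at h
    rw [QuotientGroup.eq] at h
    set v := Classical.choose (ha y.1 y.2) with hv
    set v' := Classical.choose (ha y'.1 y'.2) with hv'
    have hyv := hΦ y
    have hyv' := hΦ y'
    rw [← hv] at hyv
    rw [← hv'] at hyv'
    have hmem : (v⁻¹ * v' : ↥(Usub777 k m₀)) ∈
        ((Nsub777 k m₀ m ⊔ Asub777 m₀ y₀ hy : Subgroup ↥(Usub777 k m₀)) : Set ↥(Usub777 k m₀)) := by
      rw [sup_comm]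
      exact h
    rw [Subgroup.normal_mul, Set.mem_mul] at hmem
    obtain ⟨n, hn, a, ha', hna⟩ := hmem
    have hn' : InU m (n : GL (Fin 2) k) := Subgroup.mem_subgroupOf.1 hn
    have ha'' : InTwCentC (RingEquiv.refl k) y₀ (a : GL (Fin 2) k) :=
      Subgroup.mem_subgroupOf.1 ha'
    have hcomm : (a : GL (Fin 2) k) * y₀ = y₀ * (a : GL (Fin 2) k) :=
      ((inTwCentC_iff777 y₀ _).1 ha'').1
    have hv'eq : (v' : GL (Fin 2) k) = (v : GL (Fin 2) k) * (n : GL (Fin 2) k)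
        * (a : GL (Fin 2) k) := by
      have h1 : v' = v * (n * a) := by rw [hna]; group
      rw [h1]
      simp [mul_assoc]
    apply Subtype.ext
    apply hb y.1 y.2 y'.1 y'.2
    refine ⟨(v : GL (Fin 2) k) * (n : GL (Fin 2) k) * (v : GL (Fin 2) k)⁻¹, ?_, ?_⟩
    · exact inU_conj777 (inU_zero_of_mem777 v) hn'
    · rw [hyv', hyv, hv'eq]
      have e1 : (v : GL (Fin 2) k) * (n : GL (Fin 2) k) * (a : GL (Fin 2) k) * y₀
          * ((v : GL (Fin 2) k) * (n : GL (Fin 2) k) * (a : GL (Fin 2) k))⁻¹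
          = (v : GL (Fin 2) k) * (n : GL (Fin 2) k) * ((a : GL (Fin 2) k) * y₀)
            * (a : GL (Fin 2) k)⁻¹ * (n : GL (Fin 2) k)⁻¹ * (v : GL (Fin 2) k)⁻¹ := by group
      rw [e1, hcomm]
      group
  have hsurj : Function.Surjective Φ := by
    intro x
    obtain ⟨v, rfl⟩ := QuotientGroup.mk_surjective x
    obtain ⟨y, hyS, w, hw, hyw⟩ := hc v
    refine ⟨⟨y, hyS⟩, ?_⟩
    simp only [Φ]
    rw [QuotientGroup.eq]
    set vy := Classical.choose (ha y hyS) with hvy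
    have hyv : y = (vy : GL (Fin 2) k) * y₀ * (vy : GL (Fin 2) k)⁻¹ :=
      Classical.choose_spec (ha y hyS)
    have hwU : w ∈ Usub777 k m₀ := Usub_mono777 hm hw
    -- `a = (w v)⁻¹ v_y` commutes with `y₀`
    let a : ↥(Usub777 k m₀) := (⟨w, hwU⟩ * v)⁻¹ * vy
    have hacomm : (a : GL (Fin 2) k) * y₀ = y₀ * (a : GL (Fin 2) k) := by
      have ea : (a : GL (Fin 2) k) = (w * (v : GL (Fin 2) k))⁻¹ * (vy : GL (Fin 2) k) := by
        simp [a]
      have h1 : (vy : GL (Fin 2) k) * y₀ * (vy : GL (Fin 2) k)⁻¹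
          = w * ((v : GL (Fin 2) k) * y₀ * (v : GL (Fin 2) k)⁻¹) * w⁻¹ := by
        rw [← hyv, ← hyw]
      rw [ea]
      calc (w * (v : GL (Fin 2) k))⁻¹ * (vy : GL (Fin 2) k) * y₀
          = (w * (v : GL (Fin 2) k))⁻¹
              * ((vy : GL (Fin 2) k) * y₀ * (vy : GL (Fin 2) k)⁻¹) * (vy : GL (Fin 2) k) := by
            group
        _ = (w * (v : GL (Fin 2) k))⁻¹
              * (w * ((v : GL (Fin 2) k) * y₀ * (v : GL (Fin 2) k)⁻¹) * w⁻¹)
              * (vy : GL (Fin 2) k) := by rw [h1]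
        _ = y₀ * ((w * (v : GL (Fin 2) k))⁻¹ * (vy : GL (Fin 2) k)) := by group
    have haA : a ∈ Asub777 m₀ y₀ hy := by
      rw [Subgroup.mem_subgroupOf]
      exact mem_Tsub_of_inU777 hy a.2 hacomm
    have hnN : (v⁻¹ * (⟨w, hwU⟩ : ↥(Usub777 k m₀))⁻¹ * v) ∈ Nsub777 k m₀ m := by
      rw [Subgroup.mem_subgroupOf]
      have := inU_conj777 (inU_inv777 (inU_zero_of_mem777 v)) (inU_inv777 hw)
      simpa using this
    have e : vy⁻¹ * v = a⁻¹ * (v⁻¹ * (⟨w, hwU⟩ : ↥(Usub777 k m₀))⁻¹ * v) := by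
      simp only [a]
      group
    rw [e]
    exact Subgroup.mul_mem _ (Subgroup.mem_sup_left (Subgroup.inv_mem _ haA))
      (Subgroup.mem_sup_right hnN)
  have hcard := Nat.card_congr (Equiv.ofBijective Φ ⟨hinj, hsurj⟩)
  rw [Nat.card_eq_finsetCard] at hcard
  rw [hcard]
  rfl

/-- The counting identity:
`#(U(m)-orbits in the U(m₀)-orbit of y₀) · [T : T ∩ U(m)] = [U(m₀) : U(m)] · [T : T ∩ U(m₀)]`. -/
theorem index_identity777 {m₀ m : ℕ} (hm : m₀ ≤ m) (y₀ : GL (Fin 2) k) (hy : disc y₀ ≠ 0) :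
    (Asub777 m₀ y₀ hy ⊔ Nsub777 k m₀ m).index * (Usub777 k m).relIndex (Tsub777 y₀ hy)
      = (Usub777 k m).relIndex (Usub777 k m₀) * (Usub777 k m₀).relIndex (Tsub777 y₀ hy) := by
  have h1 : (Nsub777 k m₀ m).relIndex (Asub777 m₀ y₀ hy ⊔ Nsub777 k m₀ m)
      * (Asub777 m₀ y₀ hy ⊔ Nsub777 k m₀ m).index = (Nsub777 k m₀ m).index :=
    Subgroup.relIndex_mul_index le_sup_right
  rw [Subgroup.relIndex_sup_right] at h1
  have h2 : (Nsub777 k m₀ m).relIndex (Asub777 m₀ y₀ hy)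
      = (Usub777 k m).relIndex (Tsub777 y₀ hy ⊓ Usub777 k m₀) := by
    have := Subgroup.relIndex_subgroupOf (H := Usub777 k m)
      (K := Tsub777 y₀ hy ⊓ Usub777 k m₀) (L := Usub777 k m₀) inf_le_right
    rw [Subgroup.inf_subgroupOf_right] at this
    exact this
  have h3 : (Usub777 k m).relIndex (Usub777 k m₀ ⊓ Tsub777 y₀ hy)
      * (Usub777 k m₀).relIndex (Tsub777 y₀ hy)
      = (Usub777 k m).relIndex (Tsub777 y₀ hy) := by
    rw [Subgroup.relIndex_inf_mul_relIndex, inf_eq_left.2 (Usub_mono777 hm)]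
  have h4 : (Nsub777 k m₀ m).index = (Usub777 k m).relIndex (Usub777 k m₀) := rfl
  rw [← h3, ← h4, ← h1, h2, inf_comm]
  ring

/-! ## 7. The level change -/

/-- The index `[T_y^c : T_y^c ∩ U(n)]` of the Spec. -/
abbrev cI777 (n : ℕ) (y : GL (Fin 2) k) : ℕ :=
  cIndex (InU n) (InTwCentC (RingEquiv.refl k)) y

theorem cI_conj777 {n : ℕ} {x : GL (Fin 2) k} (hx : InU 0 x) (y : GL (Fin 2) k)
    (hy : disc y ≠ 0) : cI777 n (x * y * x⁻¹) = cI777 n y := by
  have hy' : disc (x * y * x⁻¹) ≠ 0 := by rwa [disc_conj777]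
  unfold cI777
  rw [cIndex_eq_relIndex777 n _ hy', cIndex_eq_relIndex777 n _ hy]
  exact relIndex_conj777 hx y hy hy'

theorem card_mul_cI777 {m₀ m : ℕ} (hm : m₀ ≤ m) (y₀ : GL (Fin 2) k) (hy : disc y₀ ≠ 0)
    (S : Finset (GL (Fin 2) k))
    (ha : ∀ y ∈ S, ∃ v : ↥(Usub777 k m₀),
      y = (v : GL (Fin 2) k) * y₀ * (v : GL (Fin 2) k)⁻¹)
    (hb : ∀ y ∈ S, ∀ y' ∈ S, (∃ w : GL (Fin 2) k, InU m w ∧ y' = w * y * w⁻¹) → y = y')
    (hc : ∀ v : ↥(Usub777 k m₀), ∃ y ∈ S, ∃ w : GL (Fin 2) k, InU m w ∧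
      y = w * ((v : GL (Fin 2) k) * y₀ * (v : GL (Fin 2) k)⁻¹) * w⁻¹) :
    S.card * cI777 m y₀ = (Usub777 k m).relIndex (Usub777 k m₀) * cI777 m₀ y₀ := by
  unfold cI777
  rw [cIndex_eq_relIndex777 m _ hy, cIndex_eq_relIndex777 m₀ _ hy,
    orbit_card777 y₀ hy S ha hb hc hm]
  exact index_identity777 hm y₀ hy

theorem biInv_conj777 {n : ℕ} {f : GL (Fin 2) k → ℂ} (hf : IsBiInv (InU n) f)
    {u : GL (Fin 2) k} (hu : InU n u) (y : GL (Fin 2) k) : f (u * y * u⁻¹) = f y :=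
  hf u u⁻¹ y hu (inU_inv777 hu)

/-- **T6.18d (level change)**: `LvlC783`, verbatim. -/
theorem lvlC777 : LvlC783 := by
  classical
  intro k _ _ q hk m₀ m hm
  refine ⟨(Usub777 k m).relIndex (Usub777 k m₀), relIndex_ne_zero777 hk hm, ?_⟩
  intro f hf γ c c' hγ hc hc'
  have hdisc : disc γ ≠ 0 := hγ.ne_zero
  obtain ⟨R₀, hR₀cls, hR₀irr, hR₀cov, rfl⟩ := hc
  obtain ⟨R, hRcls, hRirr, hRcov, rfl⟩ := hc'
  simp only [glAut_refl777] at hR₀cls hR₀irr hR₀cov hRcls hRirr hRcov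
  -- regularity on the class
  have hcls_disc : ∀ y : GL (Fin 2) k, (∃ x : GL (Fin 2) k, y = x⁻¹ * γ * x) → disc y ≠ 0 := by
    rintro y ⟨x, rfl⟩
    have := disc_conj777 x⁻¹ γ
    rw [inv_inv] at this
    rwa [this]
  have hfm : IsBiInv (InU m) f := fun u u' g hu hu' =>
    hf u u' g (Usub_mono777 hm hu) (Usub_mono777 hm hu')
  -- the summands
  set F : GL (Fin 2) k → ℂ := fun y => f y * (cI777 m y : ℂ) with hF
  set F₀ : GL (Fin 2) k → ℂ := fun y => f y * (cI777 m₀ y : ℂ) with hF₀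
  change ∑ y ∈ R, F y = _ * ∑ y ∈ R₀, F₀ y
  -- restrict to the support of `f`
  have hR' : ∑ y ∈ R with f y ≠ 0, F y = ∑ y ∈ R, F y := by
    refine Finset.sum_filter_of_ne fun y _ hy => ?_
    intro h0
    exact hy (by simp [hF, h0])
  have hR₀' : ∑ y ∈ R₀ with f y ≠ 0, F₀ y = ∑ y ∈ R₀, F₀ y := by
    refine Finset.sum_filter_of_ne fun y _ hy => ?_
    intro h0
    exact hy (by simp [hF₀, h0])
  rw [← hR', ← hR₀']
  -- the map to the representatives at level `m₀`
  let P : GL (Fin 2) k → GL (Fin 2) k → Prop := fun y y₀ =>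
    y₀ ∈ R₀ ∧ ∃ u : GL (Fin 2) k, InU m₀ u ∧ y = u⁻¹ * y₀ * u
  have hP : ∀ y ∈ R, f y ≠ 0 → ∃ y₀, P y y₀ := by
    intro y hy hfy
    obtain ⟨y₀, hy₀, u, hu, hyu⟩ := hR₀cov y (hRcls y hy) hfy
    exact ⟨y₀, hy₀, u, hu, hyu⟩
  let g : GL (Fin 2) k → GL (Fin 2) k := fun y =>
    if h : ∃ y₀, P y y₀ then h.choose else y
  have hg : ∀ y ∈ R, f y ≠ 0 → P y (g y) := by
    intro y hy hfy
    have h := hP y hy hfy
    simp only [g, dif_pos h]
    exact h.choose_spec
  have hfP : ∀ y y₀, P y y₀ → f y = f y₀ := by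
    rintro y y₀ ⟨-, u, hu, rfl⟩
    have := biInv_conj777 hf (inU_inv777 hu) y₀
    rwa [inv_inv] at this
  have hcIP : ∀ y y₀, P y y₀ → disc y₀ ≠ 0 → cI777 m y = cI777 m y₀ := by
    rintro y y₀ ⟨-, u, hu, rfl⟩ hd
    have := cI_conj777 (n := m) (inU_inv777 (Usub_mono777 (Nat.zero_le m₀) hu)) y₀ hd
    rwa [inv_inv] at this
  have hmaps : ∀ y ∈ R.filter (fun y => f y ≠ 0), g y ∈ R₀.filter (fun y => f y ≠ 0) := by
    intro y hy
    rw [Finset.mem_filter] at hy ⊢
    have h := hg y hy.1 hy.2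
    exact ⟨h.1, by rw [← hfP y (g y) h]; exact hy.2⟩
  rw [← Finset.sum_fiberwise_of_maps_to hmaps F, Finset.mul_sum]
  refine Finset.sum_congr rfl fun y₀ hy₀ => ?_
  rw [Finset.mem_filter] at hy₀
  obtain ⟨hy₀R, hfy₀⟩ := hy₀
  have hd₀ : disc y₀ ≠ 0 := hcls_disc y₀ (hR₀cls y₀ hy₀R)
  set S : Finset (GL (Fin 2) k) := (R.filter (fun y => f y ≠ 0)).filter (fun y => g y = y₀)
    with hS
  have hSmem : ∀ y, y ∈ S ↔ y ∈ R ∧ f y ≠ 0 ∧ g y = y₀ := by
    intro y
    simp only [hS, Finset.mem_filter, and_assoc]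
  -- the terms are constant on `S`
  have hconst : ∀ y ∈ S, F y = f y₀ * (cI777 m y₀ : ℂ) := by
    intro y hy
    obtain ⟨hyR, hfy, hgy⟩ := (hSmem y).1 hy
    have hPy := hg y hyR hfy
    rw [hgy] at hPy
    simp only [hF]
    rw [hfP y y₀ hPy, hcIP y y₀ hPy hd₀]
  rw [Finset.sum_congr rfl hconst, Finset.sum_const, nsmul_eq_mul]
  -- the three properties of `S`
  have ha : ∀ y ∈ S, ∃ v : ↥(Usub777 k m₀),
      y = (v : GL (Fin 2) k) * y₀ * (v : GL (Fin 2) k)⁻¹ := by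
    intro y hy
    obtain ⟨hyR, hfy, hgy⟩ := (hSmem y).1 hy
    have hPy := hg y hyR hfy
    rw [hgy] at hPy
    obtain ⟨-, u, hu, hyu⟩ := hPy
    refine ⟨⟨u⁻¹, inU_inv777 hu⟩, ?_⟩
    simp only [inv_inv]
    exact hyu
  have hb : ∀ y ∈ S, ∀ y' ∈ S, (∃ w : GL (Fin 2) k, InU m w ∧ y' = w * y * w⁻¹) → y = y' := by
    rintro y hy y' hy' ⟨w, hw, hyw⟩
    refine hRirr y ((hSmem y).1 hy).1 y' ((hSmem y').1 hy').1 ⟨w⁻¹, inU_inv777 hw, ?_⟩
    rw [inv_inv]
    exact hyw
  have hc : ∀ v : ↥(Usub777 k m₀), ∃ y ∈ S, ∃ w : GL (Fin 2) k, InU m w ∧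
      y = w * ((v : GL (Fin 2) k) * y₀ * (v : GL (Fin 2) k)⁻¹) * w⁻¹ := by
    intro v
    have hv : InU m₀ (v : GL (Fin 2) k) := v.2
    set y' := (v : GL (Fin 2) k) * y₀ * (v : GL (Fin 2) k)⁻¹ with hy'
    have hcls' : ∃ x : GL (Fin 2) k, y' = x⁻¹ * γ * x := by
      obtain ⟨x, hx⟩ := hR₀cls y₀ hy₀R
      refine ⟨x * (v : GL (Fin 2) k)⁻¹, ?_⟩
      rw [hy', hx]
      group
    have hfy' : f y' = f y₀ := biInv_conj777 hf hv y₀
    obtain ⟨y, hyR, u, hu, hyu⟩ := hRcov y' hcls' (by rw [hfy']; exact hfy₀)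
    have hyeq : y = u * y' * u⁻¹ := by rw [hyu]; group
    have hfy : f y = f y' := by
      rw [hyeq]
      exact biInv_conj777 hfm hu y'
    have hfy0 : f y ≠ 0 := by rw [hfy, hfy']; exact hfy₀
    refine ⟨y, (hSmem y).2 ⟨hyR, hfy0, ?_⟩, u, hu, hyeq⟩
    -- `g y = y₀`
    obtain ⟨hgR, u', hu', hyu'⟩ := hg y hyR hfy0
    refine (hR₀irr y₀ hy₀R (g y) hgR ⟨(u' * u * (v : GL (Fin 2) k))⁻¹, ?_, ?_⟩).symm
    · exact inU_inv777 (inU_mul777 (inU_mul777 hu' (Usub_mono777 hm hu)) hv)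
    · have e1 : g y = u' * y * u'⁻¹ := by
        calc g y = u' * (u'⁻¹ * g y * u') * u'⁻¹ := by group
          _ = u' * y * u'⁻¹ := by rw [← hyu']
      rw [e1, hyeq, hy']
      group
  have hkey := card_mul_cI777 hm y₀ hd₀ S ha hb hc
  have hkey' : (S.card : ℂ) * (cI777 m y₀ : ℂ)
      = ((Usub777 k m).relIndex (Usub777 k m₀) : ℂ) * (cI777 m₀ y₀ : ℂ) := by
    exact_mod_cast hkey
  simp only [hF₀]
  calc (S.card : ℂ) * (f y₀ * (cI777 m y₀ : ℂ))
      = f y₀ * ((S.card : ℂ) * (cI777 m y₀ : ℂ)) := by ring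
    _ = f y₀ * (((Usub777 k m).relIndex (Usub777 k m₀) : ℂ) * (cI777 m₀ y₀ : ℂ)) := by
        rw [hkey']
    _ = ((Usub777 k m).relIndex (Usub777 k m₀) : ℂ) * (f y₀ * (cI777 m₀ y₀ : ℂ)) := by ring

end Fermat.Agent.LT.T6.H777

end
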