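import Fermat.Agent.LT.T6.H820.PowSpec
import Fermat.Agent.LT.T6.H777.Lvl

/-!
# Row LT, tower T6, sub-leaf T6.18g3.1b `PowRootFromFnC820`, helper777, OFF-MAIN

`powRootFromFnC777 : Fermat.Agent.LT.T6.H820.PowRootFromFnC820` (VERBATIM Prop of
`H820/PowSpec.lean`): from the root functions `(a, b)` of `RootFnC820` to the conjugation
equivariant `l`-th root `ρ(y) = a(χ y) y + b(χ y)` on a `χ`-ball around `(2, 1)` and the function
`f₀ = (ψ ∘ ρ) 1_V`.

* `ρ y` is invertible because `(ρ y) ^ l = y`; `disc (ρ y) = a² disc y`, and `a ≠ 0` for `y`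
  regular (otherwise `y = (ρ y) ^ l` is scalar).
* FINITE SUPPORT: `f₀ y ≠ 0` forces `ρ y ∈ supp ψ`, so `y = (ρ y) ^ l` has bounded entries, and
  `|det y| = 1` on the ball; the bounded matrices of unit determinant are a finite union of
  cosets `x U(m')` (finite residue system).
* BI-INVARIANCE at the level `m' = N₁ + m + C + 2 B + B' + 1`: for `f₀ y ≠ 0` and
  `u, u' ∈ U(m')`, `χ(u y u')` stays in the ball and
  `ρ(u y u') = u ρ(y) u' W` with `W ∈ U(m)` (Lipschitz bounds for `a`, `b`).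
-/

set_option autoImplicit false
set_option linter.unusedSectionVars false

open scoped Matrix

noncomputable section

namespace Fermat.Agent.LT.T6.H777

open Fermat.Agent.LT.T6 Fermat.Agent.LT.T6.H783 Fermat.Agent.LT.T6.H820

variable {k : Type} [Field k] [Valued k Γ₀]

/-! ## 1. Bounded matrices -/

/-- All entries of `A` have valuation at most `exp n`. -/
def Bdd777 (n : ℤ) (A : Matrix (Fin 2) (Fin 2) k) : Prop :=
  ∀ i j : Fin 2, Valued.v (A i j) ≤ WithZero.exp n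

theorem small_iff_bdd777 (n : ℕ) (A : Matrix (Fin 2) (Fin 2) k) :
    Small777 n A ↔ Bdd777 (-(n : ℤ)) A := Iff.rfl

theorem bdd_mono777 {n n' : ℤ} (h : n ≤ n') {A : Matrix (Fin 2) (Fin 2) k}
    (hA : Bdd777 n A) : Bdd777 n' A := fun i j =>
  (hA i j).trans (WithZero.exp_le_exp.2 h)

theorem bdd_zero777 (n : ℤ) : Bdd777 n (0 : Matrix (Fin 2) (Fin 2) k) := fun i j => by
  simp

theorem bdd_one777 : Bdd777 0 (1 : Matrix (Fin 2) (Fin 2) k) := fun i j => by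
  rw [Matrix.one_apply, WithZero.exp_zero]
  split_ifs <;> simp

theorem bdd_add777 {n : ℤ} {A B : Matrix (Fin 2) (Fin 2) k} (hA : Bdd777 n A)
    (hB : Bdd777 n B) : Bdd777 n (A + B) := fun i j =>
  Valuation.map_add_le _ (hA i j) (hB i j)

theorem bdd_sub777 {n : ℤ} {A B : Matrix (Fin 2) (Fin 2) k} (hA : Bdd777 n A)
    (hB : Bdd777 n B) : Bdd777 n (A - B) := fun i j =>
  Valuation.map_sub_le _ (hA i j) (hB i j)

theorem bdd_neg777 {n : ℤ} {A : Matrix (Fin 2) (Fin 2) k} (hA : Bdd777 n A) :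
    Bdd777 n (-A) := fun i j => by
  rw [Matrix.neg_apply, Valuation.map_neg]
  exact hA i j

theorem bdd_mul777 {n n' : ℤ} {A B : Matrix (Fin 2) (Fin 2) k} (hA : Bdd777 n A)
    (hB : Bdd777 n' B) : Bdd777 (n + n') (A * B) := fun i j => by
  rw [Matrix.mul_apply]
  refine Valuation.map_sum_le _ fun l _ => ?_
  rw [map_mul, WithZero.exp_add]
  exact mul_le_mul' (hA i l) (hB l j)

theorem bdd_smul777 {j n : ℤ} {c : k} {A : Matrix (Fin 2) (Fin 2) k}
    (hc : Valued.v c ≤ WithZero.exp j) (hA : Bdd777 n A) : Bdd777 (j + n) (c • A) :=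
  fun i i' => by
    rw [Matrix.smul_apply, smul_eq_mul, map_mul, WithZero.exp_add]
    exact mul_le_mul' hc (hA i i')

theorem bdd_pow777 {n : ℤ} {A : Matrix (Fin 2) (Fin 2) k} (hA : Bdd777 n A)
    (l : ℕ) : Bdd777 (l * n) (A ^ l) := by
  induction l with
  | zero =>
    simp only [Nat.cast_zero, zero_mul, pow_zero]
    exact bdd_one777
  | succ l ih =>
    rw [pow_succ]
    have h := bdd_mul777 ih hA
    have e : ((l + 1 : ℕ) : ℤ) * n = l * n + n := by push_cast; ring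
    rw [e]
    exact h

/-- The valuation of an element is bounded by some `exp n`, `n ≥ 0`. -/
theorem exists_nat_bound777 (z : k) : ∃ n : ℕ, Valued.v z ≤ WithZero.exp (n : ℤ) := by
  rcases eq_or_ne (Valued.v z) 0 with h | h
  · exact ⟨0, by rw [h]; exact zero_le⟩
  · refine ⟨(WithZero.log (Valued.v z)).toNat, ?_⟩
    conv_lhs => rw [← WithZero.exp_log h]
    rw [WithZero.exp_le_exp]
    exact Int.self_le_toNat _

theorem exists_bdd777 (A : Matrix (Fin 2) (Fin 2) k) : ∃ n : ℕ, Bdd777 (n : ℤ) A := by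
  obtain ⟨n00, h00⟩ := exists_nat_bound777 (A 0 0)
  obtain ⟨n01, h01⟩ := exists_nat_bound777 (A 0 1)
  obtain ⟨n10, h10⟩ := exists_nat_bound777 (A 1 0)
  obtain ⟨n11, h11⟩ := exists_nat_bound777 (A 1 1)
  refine ⟨n00 + n01 + n10 + n11, fun i j => ?_⟩
  fin_cases i <;> fin_cases j
  · exact h00.trans (WithZero.exp_le_exp.2 (by push_cast; omega))
  · exact h01.trans (WithZero.exp_le_exp.2 (by push_cast; omega))
  · exact h10.trans (WithZero.exp_le_exp.2 (by push_cast; omega))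
  · exact h11.trans (WithZero.exp_le_exp.2 (by push_cast; omega))

/-- A finite set of invertible matrices is bounded, together with the inverses. -/
theorem exists_bdd_finset777 (F : Finset (GL (Fin 2) k)) :
    ∃ B : ℕ, ∀ x ∈ F, Bdd777 (B : ℤ) (x : Matrix (Fin 2) (Fin 2) k) ∧
      Bdd777 (B : ℤ) ((x⁻¹ : GL (Fin 2) k) : Matrix (Fin 2) (Fin 2) k) := by
  classical
  induction F using Finset.induction_on with
  | empty => exact ⟨0, fun x hx => absurd hx (Finset.notMem_empty x)⟩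
  | insert x F _ ih =>
    obtain ⟨B, hB⟩ := ih
    obtain ⟨n, hn⟩ := exists_bdd777 (x : Matrix (Fin 2) (Fin 2) k)
    obtain ⟨n', hn'⟩ := exists_bdd777 ((x⁻¹ : GL (Fin 2) k) : Matrix (Fin 2) (Fin 2) k)
    refine ⟨B + n + n', fun y hy => ?_⟩
    rcases Finset.mem_insert.1 hy with rfl | hy
    · exact ⟨bdd_mono777 (by push_cast; omega) hn, bdd_mono777 (by push_cast; omega) hn'⟩
    · exact ⟨bdd_mono777 (by push_cast; omega) (hB y hy).1,
        bdd_mono777 (by push_cast; omega) (hB y hy).2⟩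

/-- The inverse of a bounded matrix of unit determinant is bounded. -/
theorem bdd_inv777 {B : ℤ} {g : GL (Fin 2) k}
    (hg : Bdd777 B (g : Matrix (Fin 2) (Fin 2) k))
    (hdet : Valued.v (g : Matrix (Fin 2) (Fin 2) k).det = 1) :
    Bdd777 B ((g⁻¹ : GL (Fin 2) k) : Matrix (Fin 2) (Fin 2) k) := by
  have hne : (g : Matrix (Fin 2) (Fin 2) k).det ≠ 0 := by
    intro h
    rw [h, map_zero] at hdet
    exact zero_ne_one hdet
  have hinv : Valued.v ((g : Matrix (Fin 2) (Fin 2) k).det)⁻¹ = 1 := by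
    rw [map_inv₀, hdet, inv_one]
  rw [Matrix.coe_units_inv, Matrix.inv_def, Ring.inverse_eq_inv', Matrix.adjugate_fin_two]
  intro i j
  fin_cases i <;> fin_cases j <;>
    simp only [Fin.zero_eta, Fin.mk_one, Fin.isValue, Matrix.smul_apply, Matrix.of_apply,
      Matrix.cons_val', Matrix.cons_val_zero, Matrix.cons_val_one, Matrix.cons_val_fin_one,
      smul_eq_mul, map_mul, hinv, one_mul, Valuation.map_neg]
  · exact hg 1 1
  · exact hg 0 1
  · exact hg 1 0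
  · exact hg 0 0

/-- A matrix congruent to `1` modulo `ϖ^n`, `n ≥ 1`, lies in `U(n)`. -/
theorem inU_of_small777 {n : ℕ} (hn : 1 ≤ n) {W : GL (Fin 2) k}
    (hW : Small777 n ((W : Matrix (Fin 2) (Fin 2) k) - 1)) : InU n W := by
  have hlt : (WithZero.exp (-(n : ℤ)) : Γ₀) < 1 := by
    rw [← WithZero.exp_zero, WithZero.exp_lt_exp]
    omega
  have hint : Bdd777 0 (W : Matrix (Fin 2) (Fin 2) k) := by
    have h1 : Bdd777 0 ((W : Matrix (Fin 2) (Fin 2) k) - 1) :=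
      bdd_mono777 (by omega) ((small_iff_bdd777 n _).1 hW)
    have := bdd_add777 h1 bdd_one777
    simpa using this
  have hdet : Valued.v (W : Matrix (Fin 2) (Fin 2) k).det = 1 := by
    have e : (W : Matrix (Fin 2) (Fin 2) k).det
        = 1 + (((W : Matrix (Fin 2) (Fin 2) k) - 1) 0 0 + ((W : Matrix (Fin 2) (Fin 2) k) - 1) 1 1
          + ((W : Matrix (Fin 2) (Fin 2) k) - 1) 0 0 * ((W : Matrix (Fin 2) (Fin 2) k) - 1) 1 1
          - ((W : Matrix (Fin 2) (Fin 2) k) - 1) 0 1 * ((W : Matrix (Fin 2) (Fin 2) k) - 1) 1 0) := by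
      rw [Matrix.det_fin_two]
      simp only [Matrix.sub_apply, Matrix.one_apply_eq, ne_eq, zero_ne_one, one_ne_zero,
        not_false_eq_true, Matrix.one_apply_ne, sub_zero]
      ring
    rw [e]
    apply Valuation.map_one_add_of_lt
    have hle : ∀ i j, Valued.v (((W : Matrix (Fin 2) (Fin 2) k) - 1) i j)
        ≤ WithZero.exp (-(n : ℤ)) := hW
    have hle1 : ∀ i j, Valued.v (((W : Matrix (Fin 2) (Fin 2) k) - 1) i j) ≤ 1 :=
      fun i j => (hle i j).trans hlt.le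
    refine lt_of_le_of_lt ?_ hlt
    refine Valuation.map_sub_le _ (Valuation.map_add_le _ (Valuation.map_add_le _ (hle 0 0)
      (hle 1 1)) ?_) ?_
    · rw [map_mul]
      calc _ ≤ WithZero.exp (-(n : ℤ)) * 1 := mul_le_mul' (hle 0 0) (hle1 1 1)
        _ = _ := mul_one _
    · rw [map_mul]
      calc _ ≤ WithZero.exp (-(n : ℤ)) * 1 := mul_le_mul' (hle 0 1) (hle1 1 0)
        _ = _ := mul_one _
  have hinvint := bdd_inv777 hint hdet
  rw [inU_iff777]
  refine ⟨hW, ?_⟩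
  have e : ((W⁻¹ : GL (Fin 2) k) : Matrix (Fin 2) (Fin 2) k) - 1
      = ((W⁻¹ : GL (Fin 2) k) : Matrix (Fin 2) (Fin 2) k)
        * -((W : Matrix (Fin 2) (Fin 2) k) - 1) := by
    have h1 : ((W⁻¹ : GL (Fin 2) k) : Matrix (Fin 2) (Fin 2) k)
        * (W : Matrix (Fin 2) (Fin 2) k) = 1 := by
      rw [← Units.val_mul, inv_mul_cancel, Units.val_one]
    rw [neg_sub, Matrix.mul_sub, h1, Matrix.mul_one]
  rw [e]
  have h2 := bdd_mul777 hinvint (bdd_neg777 ((small_iff_bdd777 n _).1 hW))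
  rw [zero_add] at h2
  exact (small_iff_bdd777 n _).2 h2

/-! ## 2. Bounded matrices of unit determinant: finitely many cosets -/

theorem val_unif_pow777 {ϖ : k} (hϖ : Valued.v ϖ = WithZero.exp (-1 : ℤ)) (n : ℕ) :
    Valued.v (ϖ ^ n) = WithZero.exp (-(n : ℤ)) := by
  rw [map_pow, hϖ, ← WithZero.exp_nsmul]
  congr 1
  simp

/-- Two bounded matrices of unit determinant which are close lie in the same coset. -/
theorem inU_inv_mul_of_close777 {B m' : ℕ} {g x : GL (Fin 2) k}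
    (hg : Bdd777 (B : ℤ) (g : Matrix (Fin 2) (Fin 2) k))
    (hgd : Valued.v (g : Matrix (Fin 2) (Fin 2) k).det = 1)
    (hx : Bdd777 (B : ℤ) (x : Matrix (Fin 2) (Fin 2) k))
    (hxd : Valued.v (x : Matrix (Fin 2) (Fin 2) k).det = 1)
    (hclose : Bdd777 (-((m' + B : ℕ) : ℤ))
      ((g : Matrix (Fin 2) (Fin 2) k) - (x : Matrix (Fin 2) (Fin 2) k))) :
    InU m' (x⁻¹ * g) := by
  have hxi := bdd_inv777 hx hxd
  have hgi := bdd_inv777 hg hgd
  rw [inU_iff777]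
  constructor
  · have e : ((x⁻¹ * g : GL (Fin 2) k) : Matrix (Fin 2) (Fin 2) k) - 1
        = ((x⁻¹ : GL (Fin 2) k) : Matrix (Fin 2) (Fin 2) k)
          * ((g : Matrix (Fin 2) (Fin 2) k) - (x : Matrix (Fin 2) (Fin 2) k)) := by
      have h1 : ((x⁻¹ : GL (Fin 2) k) : Matrix (Fin 2) (Fin 2) k)
          * (x : Matrix (Fin 2) (Fin 2) k) = 1 := by
        rw [← Units.val_mul, inv_mul_cancel, Units.val_one]
      rw [Units.val_mul, Matrix.mul_sub, h1]
    rw [e, small_iff_bdd777]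
    refine bdd_mono777 ?_ (bdd_mul777 hxi hclose)
    push_cast
    omega
  · have e : (((x⁻¹ * g)⁻¹ : GL (Fin 2) k) : Matrix (Fin 2) (Fin 2) k) - 1
        = ((g⁻¹ : GL (Fin 2) k) : Matrix (Fin 2) (Fin 2) k)
          * -((g : Matrix (Fin 2) (Fin 2) k) - (x : Matrix (Fin 2) (Fin 2) k)) := by
      have h1 : ((g⁻¹ : GL (Fin 2) k) : Matrix (Fin 2) (Fin 2) k)
          * (g : Matrix (Fin 2) (Fin 2) k) = 1 := by
        rw [← Units.val_mul, inv_mul_cancel, Units.val_one]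
      rw [mul_inv_rev, inv_inv, Units.val_mul, neg_sub, Matrix.mul_sub, h1]
    rw [e, small_iff_bdd777]
    refine bdd_mono777 ?_ (bdd_mul777 hgi (bdd_neg777 hclose))
    push_cast
    omega

theorem exists_cover777 {q : ℕ} (hk : IsLocalField k q) (B m' : ℕ) :
    ∃ F : Finset (GL (Fin 2) k), ∀ g : GL (Fin 2) k,
      Bdd777 (B : ℤ) (g : Matrix (Fin 2) (Fin 2) k) →
      Valued.v (g : Matrix (Fin 2) (Fin 2) k).det = 1 →
      ∃ x ∈ F, ∃ u : GL (Fin 2) k, InU m' u ∧ g = x * u := by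
  classical
  obtain ⟨ϖ, hϖ⟩ := hk.unif
  obtain ⟨A, hA⟩ := exists_reps777 hk (m' + 2 * B)
  have hϖB := val_unif_pow777 hϖ B
  have hϖ0 : ϖ ^ B ≠ 0 := by
    intro h
    rw [h, map_zero] at hϖB
    exact WithZero.exp_ne_zero hϖB.symm
  let P : (Fin 2 → Fin 2 → A) → GL (Fin 2) k → Prop := fun c g =>
    Bdd777 (B : ℤ) (g : Matrix (Fin 2) (Fin 2) k) ∧
      Valued.v (g : Matrix (Fin 2) (Fin 2) k).det = 1 ∧
      ∀ i j, Valued.v (ϖ ^ B * (g : Matrix (Fin 2) (Fin 2) k) i j - (c i j : k))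
        ≤ WithZero.exp (-((m' + 2 * B : ℕ) : ℤ))
  let X : (Fin 2 → Fin 2 → A) → GL (Fin 2) k := fun c =>
    if h : ∃ g, P c g then h.choose else 1
  refine ⟨Finset.univ.image X, fun g hg hgd => ?_⟩
  have hint : ∀ i j, Valued.v (ϖ ^ B * (g : Matrix (Fin 2) (Fin 2) k) i j) ≤ 1 := by
    intro i j
    rw [map_mul, hϖB]
    calc WithZero.exp (-(B : ℤ)) * Valued.v ((g : Matrix (Fin 2) (Fin 2) k) i j)
        ≤ WithZero.exp (-(B : ℤ)) * WithZero.exp (B : ℤ) := mul_le_mul' le_rfl (hg i j)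
      _ = 1 := by rw [← WithZero.exp_add, neg_add_cancel, WithZero.exp_zero]
  have hch : ∀ i j, ∃ a ∈ A, Valued.v (ϖ ^ B * (g : Matrix (Fin 2) (Fin 2) k) i j - a)
      ≤ WithZero.exp (-((m' + 2 * B : ℕ) : ℤ)) := fun i j => hA _ (hint i j)
  choose c hcA hc using hch
  have hex : ∃ g', P (fun i j => ⟨c i j, hcA i j⟩) g' := ⟨g, hg, hgd, fun i j => hc i j⟩
  refine ⟨X (fun i j => ⟨c i j, hcA i j⟩), Finset.mem_image_of_mem X (Finset.mem_univ _), ?_⟩
  have hXeq : X (fun i j => ⟨c i j, hcA i j⟩) = hex.choose := by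
    simp only [X, dif_pos hex]
  rw [hXeq]
  obtain ⟨hx, hxd, hxc⟩ := hex.choose_spec
  set x := hex.choose
  have hclose : Bdd777 (-((m' + B : ℕ) : ℤ))
      ((g : Matrix (Fin 2) (Fin 2) k) - (x : Matrix (Fin 2) (Fin 2) k)) := by
    intro i j
    have e : ((g : Matrix (Fin 2) (Fin 2) k) - (x : Matrix (Fin 2) (Fin 2) k)) i j
        = (ϖ ^ B)⁻¹ * ((ϖ ^ B * (g : Matrix (Fin 2) (Fin 2) k) i j - c i j)
          - (ϖ ^ B * (x : Matrix (Fin 2) (Fin 2) k) i j - c i j)) := by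
      rw [Matrix.sub_apply]
      field_simp
      ring
    rw [e, map_mul, map_inv₀, hϖB]
    have h1 : Valued.v ((ϖ ^ B * (g : Matrix (Fin 2) (Fin 2) k) i j - c i j)
          - (ϖ ^ B * (x : Matrix (Fin 2) (Fin 2) k) i j - c i j))
        ≤ WithZero.exp (-((m' + 2 * B : ℕ) : ℤ)) :=
      Valuation.map_sub_le _ (hc i j) (hxc i j)
    calc (WithZero.exp (-(B : ℤ)) : Γ₀)⁻¹ * _
        ≤ (WithZero.exp (-(B : ℤ)) : Γ₀)⁻¹ * WithZero.exp (-((m' + 2 * B : ℕ) : ℤ)) :=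
          mul_le_mul' le_rfl h1
      _ = WithZero.exp (-((m' + B : ℕ) : ℤ)) := by
          rw [← WithZero.exp_neg, ← WithZero.exp_add]
          congr 1
          push_cast
          ring
  exact ⟨x⁻¹ * g, inU_inv_mul_of_close777 hg hgd hx hxd hclose, by group⟩

/-! ## 3. Trace and determinant estimates -/

theorem trace_lin777 (a b : k) (M : Matrix (Fin 2) (Fin 2) k) :
    (a • M + b • (1 : Matrix (Fin 2) (Fin 2) k)).trace = a * M.trace + 2 * b := by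
  simp only [Matrix.trace_fin_two, Matrix.add_apply, Matrix.smul_apply, Matrix.one_apply_eq,
    smul_eq_mul, mul_one]
  ring

theorem det_lin777 (a b : k) (M : Matrix (Fin 2) (Fin 2) k) :
    (a • M + b • (1 : Matrix (Fin 2) (Fin 2) k)).det
      = a ^ 2 * M.det + a * b * M.trace + b ^ 2 := by
  simp only [Matrix.det_fin_two, Matrix.trace_fin_two, Matrix.add_apply, Matrix.smul_apply,
    Matrix.one_apply_eq, smul_eq_mul, mul_one, ne_eq, zero_ne_one, one_ne_zero,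
    not_false_eq_true, Matrix.one_apply_ne, mul_zero, add_zero]
  ring

theorem val_det_sub_one_le777 {n : ℕ} {W : Matrix (Fin 2) (Fin 2) k}
    (hW : Small777 n (W - 1)) : Valued.v (W.det - 1) ≤ WithZero.exp (-(n : ℤ)) := by
  have e : W.det - 1 = (W - 1) 0 0 + (W - 1) 1 1 + (W - 1) 0 0 * (W - 1) 1 1
      - (W - 1) 0 1 * (W - 1) 1 0 := by
    rw [Matrix.det_fin_two]
    simp only [Matrix.sub_apply, Matrix.one_apply_eq, ne_eq, zero_ne_one, one_ne_zero,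
      not_false_eq_true, Matrix.one_apply_ne, sub_zero]
    ring
  rw [e]
  have hle1 : ∀ i j, Valued.v ((W - 1) i j) ≤ 1 := fun i j =>
    (hW i j).trans (exp_neg_le_one777 n)
  refine Valuation.map_sub_le _ (Valuation.map_add_le _ (Valuation.map_add_le _ (hW 0 0)
    (hW 1 1)) ?_) ?_
  · rw [map_mul]
    calc _ ≤ WithZero.exp (-(n : ℤ)) * 1 := mul_le_mul' (hW 0 0) (hle1 1 1)
      _ = _ := mul_one _
  · rw [map_mul]
    calc _ ≤ WithZero.exp (-(n : ℤ)) * 1 := mul_le_mul' (hW 0 1) (hle1 1 0)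
      _ = _ := mul_one _

theorem val_trace_le777 {n : ℤ} {D : Matrix (Fin 2) (Fin 2) k} (hD : Bdd777 n D) :
    Valued.v D.trace ≤ WithZero.exp n := by
  rw [Matrix.trace_fin_two]
  exact Valuation.map_add_le _ (hD 0 0) (hD 1 1)

theorem bdd_of_inU777 {n : ℕ} {u : GL (Fin 2) k} (hu : InU n u) :
    Bdd777 0 (u : Matrix (Fin 2) (Fin 2) k) := by
  have := small_of_inU777 hu
  rw [small_iff_bdd777] at this
  simpa using this

theorem bdd_inv_of_inU777 {n : ℕ} {u : GL (Fin 2) k} (hu : InU n u) :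
    Bdd777 0 ((u⁻¹ : GL (Fin 2) k) : Matrix (Fin 2) (Fin 2) k) :=
  bdd_of_inU777 (inU_inv777 hu)

/-- `χ(u g u')` is close to `χ(g)` for `u, u' ∈ U(m')` and `g` bounded of unit determinant. -/
theorem chi_close777 {B m' : ℕ} {u u' g : GL (Fin 2) k} (hu : InU m' u) (hu' : InU m' u')
    (hg : Bdd777 (B : ℤ) (g : Matrix (Fin 2) (Fin 2) k))
    (hgd : Valued.v (g : Matrix (Fin 2) (Fin 2) k).det = 1) :
    Bdd777 (B : ℤ) ((u * g * u' : GL (Fin 2) k) : Matrix (Fin 2) (Fin 2) k) ∧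
      Valued.v (((u * g * u' : GL (Fin 2) k) : Matrix (Fin 2) (Fin 2) k).trace
        - (g : Matrix (Fin 2) (Fin 2) k).trace) ≤ WithZero.exp ((B : ℤ) - m') ∧
      Valued.v (((u * g * u' : GL (Fin 2) k) : Matrix (Fin 2) (Fin 2) k).det
        - (g : Matrix (Fin 2) (Fin 2) k).det) ≤ WithZero.exp (-(m' : ℤ)) := by
  have hub := bdd_of_inU777 hu
  have hub' := bdd_of_inU777 hu'
  have hus := ((inU_iff777 m' u).1 hu).1
  have hus' := ((inU_iff777 m' u').1 hu').1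
  rw [small_iff_bdd777] at hus hus'
  refine ⟨?_, ?_, ?_⟩
  · rw [Units.val_mul, Units.val_mul]
    have := bdd_mul777 (bdd_mul777 hub hg) hub'
    simpa using this
  · have e : ((u * g * u' : GL (Fin 2) k) : Matrix (Fin 2) (Fin 2) k)
        - (g : Matrix (Fin 2) (Fin 2) k)
        = ((u : Matrix (Fin 2) (Fin 2) k) - 1) * (g : Matrix (Fin 2) (Fin 2) k)
            * (u' : Matrix (Fin 2) (Fin 2) k)
          + (g : Matrix (Fin 2) (Fin 2) k) * ((u' : Matrix (Fin 2) (Fin 2) k) - 1) := by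
      rw [Units.val_mul, Units.val_mul]
      noncomm_ring
    rw [← Matrix.trace_sub, e]
    refine val_trace_le777 (bdd_add777 ?_ ?_)
    · refine bdd_mono777 ?_ (bdd_mul777 (bdd_mul777 hus hg) hub')
      omega
    · refine bdd_mono777 ?_ (bdd_mul777 hg hus')
      omega
  · have hdu := val_det_sub_one_le777 (((inU_iff777 m' u).1 hu).1)
    have hdu' := val_det_sub_one_le777 (((inU_iff777 m' u').1 hu').1)
    have hdu1 : Valued.v (u' : Matrix (Fin 2) (Fin 2) k).det ≤ 1 :=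
      (trace_det_of_inU777 hu').2.le
    rw [Units.val_mul, Units.val_mul, Matrix.det_mul, Matrix.det_mul]
    have e : (u : Matrix (Fin 2) (Fin 2) k).det * (g : Matrix (Fin 2) (Fin 2) k).det
          * (u' : Matrix (Fin 2) (Fin 2) k).det - (g : Matrix (Fin 2) (Fin 2) k).det
        = (g : Matrix (Fin 2) (Fin 2) k).det
          * (((u : Matrix (Fin 2) (Fin 2) k).det - 1) * (u' : Matrix (Fin 2) (Fin 2) k).det
            + ((u' : Matrix (Fin 2) (Fin 2) k).det - 1)) := by ring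
    rw [e, map_mul, hgd, one_mul]
    refine Valuation.map_add_le _ ?_ hdu'
    rw [map_mul]
    calc _ ≤ WithZero.exp (-(m' : ℤ)) * 1 := mul_le_mul' hdu hdu1
      _ = _ := mul_one _

/-! ## 4. The root `ρ` and the function `f₀` -/

/-- The property of the root functions `(a, b)` on the ball of radius `exp(-N₁)`
(the body of `RootFnC820`). -/
def IsRootFn777 (l : ℕ) (N₀ N₁ C : ℤ) (a b : k → k → k) : Prop :=
  ∀ t d : k, Valued.v (t - 2 : k) ≤ WithZero.exp (-N₁) →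
    Valued.v (d - 1 : k) ≤ WithZero.exp (-N₁) →
    (∀ M : Matrix (Fin 2) (Fin 2) k, M.trace = t → M.det = d →
      (a t d • M + b t d • (1 : Matrix (Fin 2) (Fin 2) k)) ^ l = M) ∧
    Valued.v (a t d * t + 2 * b t d - 2 : k) ≤ WithZero.exp (-N₀) ∧
    Valued.v (a t d ^ 2 * d + a t d * b t d * t + b t d ^ 2 - 1 : k)
      ≤ WithZero.exp (-N₀) ∧
    Valued.v (a t d : k) ≤ WithZero.exp C ∧ Valued.v (b t d : k) ≤ WithZero.exp C ∧
    ∀ t' d' : k, Valued.v (t' - 2 : k) ≤ WithZero.exp (-N₁) →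
      Valued.v (d' - 1 : k) ≤ WithZero.exp (-N₁) →
      Valued.v (a t d - a t' d' : k)
          ≤ WithZero.exp C * max (Valued.v (t - t' : k)) (Valued.v (d - d' : k)) ∧
        Valued.v (b t d - b t' d' : k)
          ≤ WithZero.exp C * max (Valued.v (t - t' : k)) (Valued.v (d - d' : k))

/-- The matrix `a(χ y) y + b(χ y)`. -/
def rhoMat777 (a b : k → k → k) (y : GL (Fin 2) k) : Matrix (Fin 2) (Fin 2) k :=
  a (y : Matrix (Fin 2) (Fin 2) k).trace (y : Matrix (Fin 2) (Fin 2) k).det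
      • (y : Matrix (Fin 2) (Fin 2) k)
    + b (y : Matrix (Fin 2) (Fin 2) k).trace (y : Matrix (Fin 2) (Fin 2) k).det
      • (1 : Matrix (Fin 2) (Fin 2) k)

open Classical in
/-- The root `ρ(y) = a(χ y) y + b(χ y)` (junk value `1` where the matrix is singular). -/
def rho777 (a b : k → k → k) (y : GL (Fin 2) k) : GL (Fin 2) k :=
  if h : (rhoMat777 a b y).det ≠ 0 then Matrix.GeneralLinearGroup.mkOfDetNeZero _ h else 1

open Classical in
/-- The function `f₀ = (ψ ∘ ρ) 1_V`. -/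
def f0_777 (a b : k → k → k) (N : ℤ) (ψ : GL (Fin 2) k → ℂ) (y : GL (Fin 2) k) : ℂ :=
  if InChiBall783 2 1 N y then ψ (rho777 a b y) else 0

section Root

variable {l : ℕ} {N₀ N₁ C N : ℤ} {a b : k → k → k}

theorem ball_mono777 (hN : N₁ ≤ N) {y : GL (Fin 2) k} (hy : InChiBall783 2 1 N y) :
    Valued.v ((y : Matrix (Fin 2) (Fin 2) k).trace - 2) ≤ WithZero.exp (-N₁) ∧
      Valued.v ((y : Matrix (Fin 2) (Fin 2) k).det - 1) ≤ WithZero.exp (-N₁) :=
  ⟨hy.1.trans (WithZero.exp_le_exp.2 (by omega)), hy.2.trans (WithZero.exp_le_exp.2 (by omega))⟩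

theorem rhoMat_pow777 (h : IsRootFn777 l N₀ N₁ C a b) (hN : N₁ ≤ N) {y : GL (Fin 2) k}
    (hy : InChiBall783 2 1 N y) : rhoMat777 a b y ^ l = (y : Matrix (Fin 2) (Fin 2) k) :=
  (h _ _ (ball_mono777 hN hy).1 (ball_mono777 hN hy).2).1 _ rfl rfl

theorem det_ne_zero777 (y : GL (Fin 2) k) : (y : Matrix (Fin 2) (Fin 2) k).det ≠ 0 := by
  have h := congrArg Matrix.det (show (y : Matrix (Fin 2) (Fin 2) k)
    * ((y⁻¹ : GL (Fin 2) k) : Matrix (Fin 2) (Fin 2) k) = 1 by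
      rw [← Units.val_mul, mul_inv_cancel, Units.val_one])
  rw [Matrix.det_mul, Matrix.det_one] at h
  intro h0
  rw [h0, zero_mul] at h
  exact zero_ne_one h

theorem rhoMat_det_ne_zero777 (hl : 0 < l) (h : IsRootFn777 l N₀ N₁ C a b) (hN : N₁ ≤ N)
    {y : GL (Fin 2) k} (hy : InChiBall783 2 1 N y) : (rhoMat777 a b y).det ≠ 0 := by
  intro h0
  have h1 := congrArg Matrix.det (rhoMat_pow777 h hN hy)
  rw [Matrix.det_pow, h0, zero_pow hl.ne'] at h1
  exact det_ne_zero777 y h1.symm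

theorem coe_rho777 (hl : 0 < l) (h : IsRootFn777 l N₀ N₁ C a b) (hN : N₁ ≤ N)
    {y : GL (Fin 2) k} (hy : InChiBall783 2 1 N y) :
    ((rho777 a b y : GL (Fin 2) k) : Matrix (Fin 2) (Fin 2) k) = rhoMat777 a b y := by
  unfold rho777
  rw [dif_pos (rhoMat_det_ne_zero777 hl h hN hy)]
  rfl

theorem rho_pow777 (hl : 0 < l) (h : IsRootFn777 l N₀ N₁ C a b) (hN : N₁ ≤ N)
    {y : GL (Fin 2) k} (hy : InChiBall783 2 1 N y) : (rho777 a b y) ^ l = y := by
  apply Units.ext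
  rw [Units.val_pow_eq_pow_val, coe_rho777 hl h hN hy, rhoMat_pow777 h hN hy]

theorem rho_ball777 (hl : 0 < l) (h : IsRootFn777 l N₀ N₁ C a b) (hN : N₁ ≤ N)
    {y : GL (Fin 2) k} (hy : InChiBall783 2 1 N y) : InChiBall783 2 1 N₀ (rho777 a b y) := by
  obtain ⟨-, h2, h3, -⟩ := h _ _ (ball_mono777 hN hy).1 (ball_mono777 hN hy).2
  unfold InChiBall783
  rw [coe_rho777 hl h hN hy]
  unfold rhoMat777
  rw [trace_lin777, det_lin777]
  exact ⟨h2, h3⟩

theorem trace_conj777 (x y : GL (Fin 2) k) :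
    ((x⁻¹ * y * x : GL (Fin 2) k) : Matrix (Fin 2) (Fin 2) k).trace
      = (y : Matrix (Fin 2) (Fin 2) k).trace := by
  rw [Units.val_mul, Matrix.trace_mul_comm, ← Units.val_mul, mul_inv_cancel_left]

theorem det_conj777 (x y : GL (Fin 2) k) :
    ((x⁻¹ * y * x : GL (Fin 2) k) : Matrix (Fin 2) (Fin 2) k).det
      = (y : Matrix (Fin 2) (Fin 2) k).det := by
  rw [Units.val_mul, Matrix.det_mul, mul_comm, ← Matrix.det_mul, ← Units.val_mul,
    mul_inv_cancel_left]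

theorem ball_conj777 (x : GL (Fin 2) k) {y : GL (Fin 2) k} (hy : InChiBall783 2 1 N y) :
    InChiBall783 2 1 N (x⁻¹ * y * x) := by
  unfold InChiBall783 at hy ⊢
  rw [trace_conj777, det_conj777]
  exact hy

theorem rho_conj777 (hl : 0 < l) (h : IsRootFn777 l N₀ N₁ C a b) (hN : N₁ ≤ N)
    {y : GL (Fin 2) k} (hy : InChiBall783 2 1 N y) (x : GL (Fin 2) k) :
    rho777 a b (x⁻¹ * y * x) = x⁻¹ * rho777 a b y * x := by
  apply Units.ext
  rw [coe_rho777 hl h hN (ball_conj777 x hy), Units.val_mul, Units.val_mul,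
    coe_rho777 hl h hN hy]
  unfold rhoMat777
  rw [trace_conj777, det_conj777, Units.val_mul, Units.val_mul]
  have h1 : ((x⁻¹ : GL (Fin 2) k) : Matrix (Fin 2) (Fin 2) k)
      * (x : Matrix (Fin 2) (Fin 2) k) = 1 := by
    rw [← Units.val_mul, inv_mul_cancel, Units.val_one]
  rw [Matrix.mul_add, Matrix.add_mul, Matrix.mul_smul, Matrix.smul_mul, Matrix.mul_smul,
    Matrix.smul_mul, Matrix.mul_one, h1]

theorem disc_rho777 (hl : 0 < l) (h : IsRootFn777 l N₀ N₁ C a b) (hN : N₁ ≤ N)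
    {y : GL (Fin 2) k} (hy : InChiBall783 2 1 N y) :
    disc (rho777 a b y)
      = a (y : Matrix (Fin 2) (Fin 2) k).trace (y : Matrix (Fin 2) (Fin 2) k).det ^ 2
        * disc y := by
  unfold disc
  rw [coe_rho777 hl h hN hy]
  unfold rhoMat777
  rw [trace_lin777, det_lin777]
  ring

theorem rho_reg777 (hl : 0 < l) (h : IsRootFn777 l N₀ N₁ C a b) (hN : N₁ ≤ N)
    {y : GL (Fin 2) k} (hy : InChiBall783 2 1 N y) (hreg : IsReg y) :
    IsReg (rho777 a b y) := by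
  unfold IsReg at hreg ⊢
  rw [isUnit_iff_ne_zero] at hreg ⊢
  rw [disc_rho777 hl h hN hy]
  refine mul_ne_zero (pow_ne_zero _ ?_) hreg
  intro ha
  apply hreg
  have hp := rhoMat_pow777 h hN hy
  unfold rhoMat777 at hp
  rw [ha, zero_smul, zero_add, smul_pow, one_pow] at hp
  unfold disc
  rw [← hp]
  simp only [Matrix.trace_fin_two, Matrix.det_fin_two, Matrix.smul_apply, Matrix.one_apply_eq,
    smul_eq_mul, mul_one, ne_eq, zero_ne_one, one_ne_zero, not_false_eq_true,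
    Matrix.one_apply_ne, mul_zero]
  ring

theorem f0_eq777 (ψ : GL (Fin 2) k → ℂ) {y : GL (Fin 2) k} (hy : InChiBall783 2 1 N y) :
    f0_777 a b N ψ y = ψ (rho777 a b y) := by
  unfold f0_777
  rw [if_pos hy]

theorem f0_ne777 {ψ : GL (Fin 2) k → ℂ} {y : GL (Fin 2) k} (hy : f0_777 a b N ψ y ≠ 0) :
    InChiBall783 2 1 N y ∧ ψ (rho777 a b y) ≠ 0 := by
  unfold f0_777 at hy
  by_cases hb : InChiBall783 2 1 N y
  · rw [if_pos hb] at hy
    exact ⟨hb, hy⟩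
  · rw [if_neg hb] at hy
    exact absurd rfl hy

theorem isRootOn777 (hl : 0 < l) (h : IsRootFn777 l N₀ N₁ C a b) (hN : N₁ ≤ N)
    (ψ : GL (Fin 2) k → ℂ) : IsRootOn820 l N₀ N ψ (rho777 a b) (f0_777 a b N ψ) :=
  fun _ hreg hy => ⟨rho_pow777 hl h hN hy, rho_reg777 hl h hN hy hreg,
    rho_ball777 hl h hN hy, fun x => rho_conj777 hl h hN hy x, f0_eq777 ψ hy⟩

/-! ## 5. Boundedness on the support -/

theorem val_det_eq_one_of_ball777 (hN1 : 1 ≤ N) {y : GL (Fin 2) k}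
    (hy : InChiBall783 2 1 N y) : Valued.v (y : Matrix (Fin 2) (Fin 2) k).det = 1 := by
  have e : (y : Matrix (Fin 2) (Fin 2) k).det
      = 1 + ((y : Matrix (Fin 2) (Fin 2) k).det - 1) := by ring
  rw [e]
  apply Valuation.map_one_add_of_lt
  refine lt_of_le_of_lt hy.2 ?_
  rw [← WithZero.exp_zero, WithZero.exp_lt_exp]
  omega

/-- The data on the support of `f₀`. -/
theorem supp_bounds777 (hl : 0 < l) (h : IsRootFn777 l N₀ N₁ C a b) (hN : N₁ ≤ N)
    (hN1 : 1 ≤ N) {m Bψ : ℕ} {ψ : GL (Fin 2) k → ℂ} {Fψ : Finset (GL (Fin 2) k)}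
    (hFψ : ∀ g : GL (Fin 2) k, ψ g ≠ 0 → ∃ x ∈ Fψ, ∃ u : GL (Fin 2) k, InU m u ∧ g = x * u)
    (hBψ : ∀ x ∈ Fψ, Bdd777 (Bψ : ℤ) (x : Matrix (Fin 2) (Fin 2) k) ∧
      Bdd777 (Bψ : ℤ) ((x⁻¹ : GL (Fin 2) k) : Matrix (Fin 2) (Fin 2) k))
    {g : GL (Fin 2) k} (hg : f0_777 a b N ψ g ≠ 0) :
    InChiBall783 2 1 N g ∧ ψ (rho777 a b g) ≠ 0 ∧
      Bdd777 (Bψ : ℤ) ((rho777 a b g : GL (Fin 2) k) : Matrix (Fin 2) (Fin 2) k) ∧
      Bdd777 (Bψ : ℤ) (((rho777 a b g)⁻¹ : GL (Fin 2) k) : Matrix (Fin 2) (Fin 2) k) ∧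
      Bdd777 ((l * Bψ : ℕ) : ℤ) (g : Matrix (Fin 2) (Fin 2) k) ∧
      Valued.v (g : Matrix (Fin 2) (Fin 2) k).det = 1 := by
  obtain ⟨hb, hψ⟩ := f0_ne777 hg
  obtain ⟨x, hx, u, hu, hxu⟩ := hFψ _ hψ
  obtain ⟨hx1, hx2⟩ := hBψ x hx
  have hρ : Bdd777 (Bψ : ℤ) ((rho777 a b g : GL (Fin 2) k) : Matrix (Fin 2) (Fin 2) k) := by
    rw [hxu, Units.val_mul]
    have := bdd_mul777 hx1 (bdd_of_inU777 hu)
    rwa [add_zero] at this
  have hρi : Bdd777 (Bψ : ℤ)
      (((rho777 a b g)⁻¹ : GL (Fin 2) k) : Matrix (Fin 2) (Fin 2) k) := by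
    rw [hxu, mul_inv_rev, Units.val_mul]
    have := bdd_mul777 (bdd_inv_of_inU777 hu) hx2
    rwa [zero_add] at this
  refine ⟨hb, hψ, hρ, hρi, ?_, val_det_eq_one_of_ball777 hN1 hb⟩
  have hp := rhoMat_pow777 h hN hb
  rw [← coe_rho777 hl h hN hb] at hp
  rw [← hp]
  have := bdd_pow777 hρ l
  push_cast
  exact this

/-! ## 6. Bi-invariance -/

theorem ball_close777 {B m' : ℕ} (hm' : N + B ≤ m') {g g' : GL (Fin 2) k}
    (hg : InChiBall783 2 1 N g)
    (ht : Valued.v ((g' : Matrix (Fin 2) (Fin 2) k).trace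
      - (g : Matrix (Fin 2) (Fin 2) k).trace) ≤ WithZero.exp ((B : ℤ) - m'))
    (hd : Valued.v ((g' : Matrix (Fin 2) (Fin 2) k).det
      - (g : Matrix (Fin 2) (Fin 2) k).det) ≤ WithZero.exp (-(m' : ℤ))) :
    InChiBall783 2 1 N g' := by
  constructor
  · have e : (g' : Matrix (Fin 2) (Fin 2) k).trace - 2
        = ((g' : Matrix (Fin 2) (Fin 2) k).trace - (g : Matrix (Fin 2) (Fin 2) k).trace)
          + ((g : Matrix (Fin 2) (Fin 2) k).trace - 2) := by ring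
    rw [e]
    exact Valuation.map_add_le _ (ht.trans (WithZero.exp_le_exp.2 (by omega))) hg.1
  · have e : (g' : Matrix (Fin 2) (Fin 2) k).det - 1
        = ((g' : Matrix (Fin 2) (Fin 2) k).det - (g : Matrix (Fin 2) (Fin 2) k).det)
          + ((g : Matrix (Fin 2) (Fin 2) k).det - 1) := by ring
    rw [e]
    exact Valuation.map_add_le _ (hd.trans (WithZero.exp_le_exp.2 (by omega))) hg.2

/-- The Lipschitz estimate for `ρ`: `ρ(u g u') - u ρ(g) u'` is small. -/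
theorem rhoMat_close777 (h : IsRootFn777 l N₀ N₁ C a b) (hN : N₁ ≤ N) {B Cn m' : ℕ}
    (hC : C ≤ Cn) {u u' g : GL (Fin 2) k} (hu : InU m' u) (hu' : InU m' u')
    (hg : Bdd777 (B : ℤ) (g : Matrix (Fin 2) (Fin 2) k))
    (hgd : Valued.v (g : Matrix (Fin 2) (Fin 2) k).det = 1)
    (hb : InChiBall783 2 1 N g) (hb' : InChiBall783 2 1 N (u * g * u')) :
    Bdd777 ((Cn : ℤ) + 2 * B - m')
      (rhoMat777 a b (u * g * u') - (u : Matrix (Fin 2) (Fin 2) k) * rhoMat777 a b g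
        * (u' : Matrix (Fin 2) (Fin 2) k)) := by
  obtain ⟨hgb, htr, hdt⟩ := chi_close777 hu hu' hg hgd
  obtain ⟨-, -, -, -, hbC, -⟩ := h _ _ (ball_mono777 hN hb).1 (ball_mono777 hN hb).2
  obtain ⟨-, -, -, -, -, hL⟩ := h _ _ (ball_mono777 hN hb').1 (ball_mono777 hN hb').2
  obtain ⟨hLa, hLb⟩ := hL _ _ (ball_mono777 hN hb).1 (ball_mono777 hN hb).2
  have hmax : max (Valued.v (((u * g * u' : GL (Fin 2) k) : Matrix (Fin 2) (Fin 2) k).trace
        - (g : Matrix (Fin 2) (Fin 2) k).trace))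
      (Valued.v (((u * g * u' : GL (Fin 2) k) : Matrix (Fin 2) (Fin 2) k).det
        - (g : Matrix (Fin 2) (Fin 2) k).det)) ≤ WithZero.exp ((B : ℤ) - m') :=
    max_le htr (hdt.trans (WithZero.exp_le_exp.2 (by omega)))
  have hexp : (WithZero.exp C : Γ₀) * WithZero.exp ((B : ℤ) - m')
      ≤ WithZero.exp ((Cn : ℤ) + B - m') := by
    rw [← WithZero.exp_add, WithZero.exp_le_exp]
    omega
  have hLa' := (hLa.trans (mul_le_mul' le_rfl hmax)).trans hexp
  have hLb' := (hLb.trans (mul_le_mul' le_rfl hmax)).trans hexp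
  have hus := ((inU_iff777 m' u).1 hu).1
  have hus' := ((inU_iff777 m' u').1 hu').1
  rw [small_iff_bdd777] at hus hus'
  have hub := bdd_of_inU777 hu
  have e : rhoMat777 a b (u * g * u') - (u : Matrix (Fin 2) (Fin 2) k) * rhoMat777 a b g
        * (u' : Matrix (Fin 2) (Fin 2) k)
      = (a ((u * g * u' : GL (Fin 2) k) : Matrix (Fin 2) (Fin 2) k).trace
            ((u * g * u' : GL (Fin 2) k) : Matrix (Fin 2) (Fin 2) k).det
          - a (g : Matrix (Fin 2) (Fin 2) k).trace (g : Matrix (Fin 2) (Fin 2) k).det)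
          • ((u * g * u' : GL (Fin 2) k) : Matrix (Fin 2) (Fin 2) k)
        + (b ((u * g * u' : GL (Fin 2) k) : Matrix (Fin 2) (Fin 2) k).trace
            ((u * g * u' : GL (Fin 2) k) : Matrix (Fin 2) (Fin 2) k).det
          - b (g : Matrix (Fin 2) (Fin 2) k).trace (g : Matrix (Fin 2) (Fin 2) k).det)
          • (1 : Matrix (Fin 2) (Fin 2) k)
        - b (g : Matrix (Fin 2) (Fin 2) k).trace (g : Matrix (Fin 2) (Fin 2) k).det
          • (((u : Matrix (Fin 2) (Fin 2) k) - 1) * (u' : Matrix (Fin 2) (Fin 2) k)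
            + ((u' : Matrix (Fin 2) (Fin 2) k) - 1)) := by
    unfold rhoMat777
    rw [Units.val_mul, Units.val_mul]
    simp only [Matrix.mul_add, Matrix.add_mul, Matrix.mul_smul, Matrix.smul_mul, Matrix.mul_one,
      Matrix.one_mul, sub_smul, smul_add, smul_sub, Matrix.sub_mul]
    abel
  rw [e]
  refine bdd_sub777 (bdd_add777 ?_ ?_) ?_
  · refine bdd_mono777 ?_ (bdd_smul777 hLa' hgb)
    omega
  · refine bdd_mono777 ?_ (bdd_smul777 hLb' bdd_one777)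
    omega
  · have h1 : Bdd777 (-(m' : ℤ)) (((u : Matrix (Fin 2) (Fin 2) k) - 1)
        * (u' : Matrix (Fin 2) (Fin 2) k) + ((u' : Matrix (Fin 2) (Fin 2) k) - 1)) := by
      refine bdd_add777 ?_ hus'
      have := bdd_mul777 hus (bdd_of_inU777 hu')
      rwa [add_zero] at this
    refine bdd_mono777 ?_ (bdd_smul777 (hbC.trans (WithZero.exp_le_exp.2 hC)) h1)
    omega

theorem inU_mono777 {m₀ m : ℕ} (hm : m₀ ≤ m) {g : GL (Fin 2) k} (hg : InU m g) : InU m₀ g :=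
  Usub_mono777 hm hg

/-- The key step of the bi-invariance: on the support, `f₀ (u g u') = f₀ g`. -/
theorem f0_inv_of_ne777 (hl : 0 < l) (h : IsRootFn777 l N₀ N₁ C a b) (hN : N₁ ≤ N)
    (hN1 : 1 ≤ N) {m Bψ Cn m' : ℕ} (hC : C ≤ Cn)
    (hm' : N + m + Cn + 2 * (l * Bψ : ℕ) + Bψ + 1 ≤ m')
    {ψ : GL (Fin 2) k → ℂ} (hψ : IsBiInv (InU m) ψ) {Fψ : Finset (GL (Fin 2) k)}
    (hFψ : ∀ g : GL (Fin 2) k, ψ g ≠ 0 → ∃ x ∈ Fψ, ∃ u : GL (Fin 2) k, InU m u ∧ g = x * u)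
    (hBψ : ∀ x ∈ Fψ, Bdd777 (Bψ : ℤ) (x : Matrix (Fin 2) (Fin 2) k) ∧
      Bdd777 (Bψ : ℤ) ((x⁻¹ : GL (Fin 2) k) : Matrix (Fin 2) (Fin 2) k))
    {u u' g : GL (Fin 2) k} (hu : InU m' u) (hu' : InU m' u')
    (hg : f0_777 a b N ψ g ≠ 0) :
    f0_777 a b N ψ (u * g * u') = f0_777 a b N ψ g := by
  obtain ⟨hb, -, hρ, hρi, hgB, hgd⟩ := supp_bounds777 hl h hN hN1 hFψ hBψ hg
  generalize l * Bψ = B at hm' hgB
  obtain ⟨-, htr, hdt⟩ := chi_close777 hu hu' hgB hgd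
  have hb' : InChiBall783 2 1 N (u * g * u') :=
    ball_close777 (by omega) hb htr hdt
  have hE := rhoMat_close777 h hN hC hu hu' hgB hgd hb hb'
  rw [f0_eq777 ψ hb, f0_eq777 ψ hb']
  -- the correction `W`
  set r := rho777 a b g with hr
  set r' := rho777 a b (u * g * u') with hr'
  have hW : InU (m + 1) ((u * r * u')⁻¹ * r') := by
    apply inU_of_small777 (Nat.le_add_left 1 m)
    have h1 : (((u * r * u')⁻¹ : GL (Fin 2) k) : Matrix (Fin 2) (Fin 2) k)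
        * ((u * r * u' : GL (Fin 2) k) : Matrix (Fin 2) (Fin 2) k) = 1 := by
      rw [← Units.val_mul, inv_mul_cancel, Units.val_one]
    have e : (((u * r * u')⁻¹ * r' : GL (Fin 2) k) : Matrix (Fin 2) (Fin 2) k) - 1
        = (((u * r * u')⁻¹ : GL (Fin 2) k) : Matrix (Fin 2) (Fin 2) k)
          * (rhoMat777 a b (u * g * u') - (u : Matrix (Fin 2) (Fin 2) k) * rhoMat777 a b g
            * (u' : Matrix (Fin 2) (Fin 2) k)) := by
      rw [← coe_rho777 hl h hN hb, ← coe_rho777 hl h hN hb', ← Units.val_mul, ← Units.val_mul,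
        Matrix.mul_sub, h1, Units.val_mul]
    rw [e, small_iff_bdd777]
    have hinv : Bdd777 (Bψ : ℤ)
        (((u * r * u')⁻¹ : GL (Fin 2) k) : Matrix (Fin 2) (Fin 2) k) := by
      rw [mul_inv_rev, mul_inv_rev, Units.val_mul, Units.val_mul]
      have := bdd_mul777 (bdd_inv_of_inU777 hu') (bdd_mul777 hρi (bdd_inv_of_inU777 hu))
      rwa [add_zero, zero_add] at this
    refine bdd_mono777 ?_ (bdd_mul777 hinv hE)
    push_cast
    omega
  have hmm' : m ≤ m' := by omega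
  have e : r' = u * r * (u' * ((u * r * u')⁻¹ * r')) := by group
  rw [e]
  exact hψ u _ r (inU_mono777 hmm' hu)
    (inU_mul777 (inU_mono777 hmm' hu') (inU_mono777 (Nat.le_add_right m 1) hW))

theorem f0_biInv777 (hl : 0 < l) (h : IsRootFn777 l N₀ N₁ C a b) (hN : N₁ ≤ N)
    (hN1 : 1 ≤ N) {m Bψ Cn m' : ℕ} (hC : C ≤ Cn)
    (hm' : N + m + Cn + 2 * (l * Bψ : ℕ) + Bψ + 1 ≤ m')
    {ψ : GL (Fin 2) k → ℂ} (hψ : IsBiInv (InU m) ψ) {Fψ : Finset (GL (Fin 2) k)}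
    (hFψ : ∀ g : GL (Fin 2) k, ψ g ≠ 0 → ∃ x ∈ Fψ, ∃ u : GL (Fin 2) k, InU m u ∧ g = x * u)
    (hBψ : ∀ x ∈ Fψ, Bdd777 (Bψ : ℤ) (x : Matrix (Fin 2) (Fin 2) k) ∧
      Bdd777 (Bψ : ℤ) ((x⁻¹ : GL (Fin 2) k) : Matrix (Fin 2) (Fin 2) k)) :
    IsBiInv (InU m') (f0_777 a b N ψ) := by
  intro u u' g hu hu'
  by_cases hg : f0_777 a b N ψ g = 0
  · by_contra hne
    have hne' : f0_777 a b N ψ (u * g * u') ≠ 0 := fun h0 => hne (h0.trans hg.symm)
    have := f0_inv_of_ne777 hl h hN hN1 hC hm' hψ hFψ hBψ (inU_inv777 hu) (inU_inv777 hu') hne'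
    have e : u⁻¹ * (u * g * u') * u'⁻¹ = g := by group
    rw [e] at this
    exact hne' (this ▸ hg)
  · exact f0_inv_of_ne777 hl h hN hN1 hC hm' hψ hFψ hBψ hu hu' hg

theorem f0_finSupp777 {q : ℕ} (hk : IsLocalField k q) (hl : 0 < l)
    (h : IsRootFn777 l N₀ N₁ C a b) (hN : N₁ ≤ N)
    (hN1 : 1 ≤ N) {m Bψ : ℕ} (m' : ℕ)
    {ψ : GL (Fin 2) k → ℂ} {Fψ : Finset (GL (Fin 2) k)}
    (hFψ : ∀ g : GL (Fin 2) k, ψ g ≠ 0 → ∃ x ∈ Fψ, ∃ u : GL (Fin 2) k, InU m u ∧ g = x * u)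
    (hBψ : ∀ x ∈ Fψ, Bdd777 (Bψ : ℤ) (x : Matrix (Fin 2) (Fin 2) k) ∧
      Bdd777 (Bψ : ℤ) ((x⁻¹ : GL (Fin 2) k) : Matrix (Fin 2) (Fin 2) k)) :
    HasFinSupp (InU m') (f0_777 a b N ψ) := by
  obtain ⟨F, hF⟩ := exists_cover777 hk (l * Bψ) m'
  refine ⟨F, fun g hg => ?_⟩
  obtain ⟨-, -, -, -, hgB, hgd⟩ := supp_bounds777 hl h hN hN1 hFψ hBψ hg
  exact hF g hgB hgd

end Root

/-! ## 7. The theorem -/

/-- **T6.18g3.1b** (`PowRootFromFnC820`, VERBATIM). -/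
theorem powRootFromFnC777 : PowRootFromFnC820 := by
  intro hroot k _ _ q l hk hl N₀ m ψ hψ hψs
  obtain ⟨N₁, C, a, b, hab⟩ := hroot k q l hk hl N₀
  have h : IsRootFn777 l N₀ N₁ C a b := hab
  obtain ⟨Fψ, hFψ⟩ := hψs
  obtain ⟨Bψ, hBψ⟩ := exists_bdd_finset777 Fψ
  have hN : N₁ ≤ max N₁ 1 := le_max_left _ _
  have hN1 : (1 : ℤ) ≤ max N₁ 1 := le_max_right _ _
  have hC : C ≤ ((C.toNat : ℕ) : ℤ) := Int.self_le_toNat C
  have hm' : max N₁ 1 + m + (C.toNat : ℕ) + 2 * (l * Bψ : ℕ) + Bψ + 1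
      ≤ (((max N₁ 1).toNat + m + C.toNat + 2 * (l * Bψ) + Bψ + 1 : ℕ) : ℤ) := by
    have := Int.self_le_toNat (max N₁ 1)
    push_cast
    omega
  refine ⟨max N₁ 1, (max N₁ 1).toNat + m + C.toNat + 2 * (l * Bψ) + Bψ + 1,
    rho777 a b, f0_777 a b (max N₁ 1) ψ, by omega, ?_, ?_, ?_⟩
  · exact f0_biInv777 hl h hN hN1 hC hm' hψ hFψ hBψ
  · exact f0_finSupp777 hk hl h hN hN1 _ hFψ hBψ
  · exact isRootOn777 hl h hN ψ

end Fermat.Agent.LT.T6.H777

end
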